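/-
S19 / W : evaluation of a function on a divisor, `f(D) = ∏_P f(P)^{D P}`.
-/
import Fermat.Agent.S17.FF.Semi

set_option autoImplicit false
set_option linter.unusedSectionVars false

noncomputable section

namespace Fermat.Agent.S19.W

open AlgebraicCurve Fermat.Agent.S17.FF

variable {K F : Type*} [Field K] [Field F] [Algebra K F] [IsAlgClosed K] [CharZero K] [IsFF K F]

/-- `f(D) = ∏_P f(P)^{D P}`. -/
def evalD (f : F) (D : Divisor K F) : K := D.prod fun P n => (val P f) ^ n

/-- `f ≠ 0` has neither a zero nor a pole on the support of `D`. -/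
def Disj (f : F) (D : Divisor K F) : Prop := f ≠ 0 ∧ ∀ P : Place K F, D P ≠ 0 → P.ord f = 0

theorem val_ne_zero_of_ord_eq_zero {P : Place K F} {f : F} (hf : f ≠ 0) (h : P.ord f = 0) :
    val P f ≠ 0 := by
  intro h0
  rcases (val_eq_zero_iff P h.ge).mp h0 with h1 | h1
  · exact hf h1
  · exact h1.ne' h

theorem val_inv {P : Place K F} {f : F} (hf : f ≠ 0) (h : P.ord f = 0) :
    val P f⁻¹ = (val P f)⁻¹ := by
  have h' : P.ord f⁻¹ = 0 := by rw [P.ord_inv, h, neg_zero]
  have h1 := val_mul P h.ge h'.ge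
  rw [mul_inv_cancel₀ hf] at h1
  have h2 : val P (1 : F) = 1 := by
    have := val_algebraMap P (1 : K)
    rwa [map_one] at this
  rw [h2] at h1
  exact eq_inv_of_mul_eq_one_right h1.symm

theorem val_pow {P : Place K F} {f : F} (h : 0 ≤ P.ord f) (n : ℕ) :
    val P (f ^ n) = val P f ^ n := by
  induction n with
  | zero =>
    have := val_algebraMap P (1 : K)
    rw [map_one] at this
    rw [pow_zero, pow_zero, this]
  | succ n ih =>
    have hn : 0 ≤ P.ord (f ^ n) := by
      have := P.ord_zpow f n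
      rw [zpow_natCast] at this
      rw [this]
      positivity
    rw [pow_succ, pow_succ, val_mul P hn h, ih]

theorem val_zpow {P : Place K F} {f : F} (hf : f ≠ 0) (h : P.ord f = 0) (n : ℤ) :
    val P (f ^ n) = val P f ^ n := by
  obtain ⟨m, rfl | rfl⟩ := n.eq_nat_or_neg
  · rw [zpow_natCast, zpow_natCast, val_pow h.ge]
  · have hm : P.ord (f ^ m) = 0 := by
      have := P.ord_zpow f m
      rw [zpow_natCast] at this
      rw [this, h, mul_zero]
    rw [zpow_neg, zpow_neg, zpow_natCast, zpow_natCast, val_inv (pow_ne_zero m hf) hm,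
      val_pow h.ge]

theorem ord_prod {ι : Type*} (s : Finset ι) (P : Place K F) (f : ι → F)
    (h : ∀ i ∈ s, f i ≠ 0) : P.ord (∏ i ∈ s, f i) = ∑ i ∈ s, P.ord (f i) := by
  classical
  induction s using Finset.induction_on with
  | empty => rw [Finset.prod_empty, Finset.sum_empty, P.ord_one]
  | insert a s ha ih =>
    rw [Finset.prod_insert ha, Finset.sum_insert ha,
      P.ord_mul (h a (Finset.mem_insert_self a s))
        (Finset.prod_ne_zero_iff.mpr fun i hi => h i (Finset.mem_insert_of_mem hi)),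
      ih fun i hi => h i (Finset.mem_insert_of_mem hi)]

theorem Defs_ord_prod_nonneg {ι : Type*} (s : Finset ι) (P : Place K F) (f : ι → F)
    (h : ∀ i ∈ s, 0 ≤ P.ord (f i)) : 0 ≤ P.ord (∏ i ∈ s, f i) := by
  by_cases h0 : ∀ i ∈ s, f i ≠ 0
  · rw [ord_prod s P f h0]
    exact Finset.sum_nonneg h
  · push Not at h0
    obtain ⟨i, hi, hi0⟩ := h0
    rw [Finset.prod_eq_zero hi hi0, P.ord_zero]

theorem val_prod {ι : Type*} (s : Finset ι) (P : Place K F) (f : ι → F)
    (h : ∀ i ∈ s, 0 ≤ P.ord (f i)) : val P (∏ i ∈ s, f i) = ∏ i ∈ s, val P (f i) := by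
  classical
  induction s using Finset.induction_on with
  | empty =>
    have := val_algebraMap P (1 : K)
    rw [map_one] at this
    rw [Finset.prod_empty, Finset.prod_empty, this]
  | insert a s ha ih =>
    rw [Finset.prod_insert ha, Finset.prod_insert ha,
      val_mul P (h a (Finset.mem_insert_self a s))
        (Defs_ord_prod_nonneg s P f fun i hi => h i (Finset.mem_insert_of_mem hi)),
      ih fun i hi => h i (Finset.mem_insert_of_mem hi)]

theorem Disj.mul {f g : F} {D : Divisor K F} (hf : Disj f D) (hg : Disj g D) : Disj (f * g) D :=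
  ⟨mul_ne_zero hf.1 hg.1, fun P hP => by
    rw [P.ord_mul hf.1 hg.1, hf.2 P hP, hg.2 P hP, add_zero]⟩

theorem Disj.inv {f : F} {D : Divisor K F} (hf : Disj f D) : Disj f⁻¹ D :=
  ⟨inv_ne_zero hf.1, fun P hP => by rw [P.ord_inv, hf.2 P hP, neg_zero]⟩

theorem Disj.div {f g : F} {D : Divisor K F} (hf : Disj f D) (hg : Disj g D) : Disj (f / g) D := by
  rw [div_eq_mul_inv]
  exact hf.mul hg.inv

theorem Disj.zpow {f : F} {D : Divisor K F} (hf : Disj f D) (n : ℤ) : Disj (f ^ n) D :=
  ⟨zpow_ne_zero n hf.1, fun P hP => by rw [P.ord_zpow, hf.2 P hP, mul_zero]⟩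

theorem Disj.pow {f : F} {D : Divisor K F} (hf : Disj f D) (n : ℕ) : Disj (f ^ n) D := by
  rw [← zpow_natCast]
  exact hf.zpow n

theorem Disj.add {f : F} {D E : Divisor K F} (hD : Disj f D) (hE : Disj f E) : Disj f (D + E) :=
  ⟨hD.1, fun P hP => by
    by_cases h : D P = 0
    · refine hE.2 P fun h' => hP ?_
      rw [Finsupp.add_apply, h, h', add_zero]
    · exact hD.2 P h⟩

theorem Disj.neg {f : F} {D : Divisor K F} (hD : Disj f D) : Disj f (-D) :=
  ⟨hD.1, fun P hP => hD.2 P fun h => hP (by rw [Finsupp.neg_apply, h, neg_zero])⟩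

theorem Disj.sub {f : F} {D E : Divisor K F} (hD : Disj f D) (hE : Disj f E) : Disj f (D - E) := by
  rw [sub_eq_add_neg]
  exact hD.add hE.neg

theorem Disj.zsmul {f : F} {D : Divisor K F} (hD : Disj f D) (n : ℤ) : Disj f (n • D) :=
  ⟨hD.1, fun P hP => hD.2 P fun h => hP (by rw [Finsupp.smul_apply, h, smul_zero])⟩

theorem disj_algebraMap {c : K} (hc : c ≠ 0) (D : Divisor K F) : Disj (algebraMap K F c) D :=
  ⟨(map_ne_zero _).mpr hc, fun P _ => Fermat.Agent.S24.Zeros.ord_algebraMap P c⟩

theorem disj_zero {f : F} (hf : f ≠ 0) : Disj f (0 : Divisor K F) :=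
  ⟨hf, fun _ hP => absurd (Finsupp.zero_apply) hP⟩

theorem evalD_zero (f : F) : evalD f (0 : Divisor K F) = 1 := by
  exact Finsupp.prod_zero_index

theorem evalD_single (f : F) (P : Place K F) (n : ℤ) :
    evalD f (Finsupp.single P n) = val P f ^ n := by
  exact Finsupp.prod_single_index (zpow_zero _)

/-- the product may be taken over any finite set containing the support. -/
theorem evalD_eq_prod (f : F) (D : Divisor K F) (s : Finset (Place K F)) (hs : D.support ⊆ s) :
    evalD f D = ∏ P ∈ s, val P f ^ D P := by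
  exact Finsupp.prod_of_support_subset D hs _ (fun _ _ => zpow_zero _)

theorem Defs_evalD_def (f : F) (D : Divisor K F) :
    evalD f D = ∏ P ∈ D.support, val P f ^ D P := rfl

theorem Defs_prod_zpow {ι : Type*} (s : Finset ι) {c : K} (hc : c ≠ 0) (a : ι → ℤ) :
    ∏ i ∈ s, c ^ a i = c ^ ∑ i ∈ s, a i := by
  classical
  induction s using Finset.induction_on with
  | empty => simp
  | insert i s hi ih => rw [Finset.prod_insert hi, Finset.sum_insert hi, ih, zpow_add₀ hc]

theorem Defs_val_ne_zero {f : F} {D : Divisor K F} (h : Disj f D) {P : Place K F}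
    (hP : P ∈ D.support) : val P f ≠ 0 :=
  val_ne_zero_of_ord_eq_zero h.1 (h.2 P (Finsupp.mem_support_iff.1 hP))

theorem evalD_ne_zero {f : F} {D : Divisor K F} (h : Disj f D) : evalD f D ≠ 0 := by
  unfold evalD Finsupp.prod
  exact Finset.prod_ne_zero_iff.2 fun P hP => zpow_ne_zero _ (Defs_val_ne_zero h hP)

theorem evalD_add {f : F} {D E : Divisor K F} (hD : Disj f D) (hE : Disj f E) :
    evalD f (D + E) = evalD f D * evalD f E := by
  classical
  refine Finsupp.prod_add_index (fun _ _ => zpow_zero _) fun P hP m n => ?_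
  refine zpow_add₀ ?_ m n
  rcases Finset.mem_union.1 hP with h | h
  · exact Defs_val_ne_zero hD h
  · exact Defs_val_ne_zero hE h

theorem evalD_neg (f : F) (D : Divisor K F) : evalD f (-D) = (evalD f D)⁻¹ := by
  rw [evalD_eq_prod f (-D) D.support (by rw [Finsupp.support_neg]),
    evalD_eq_prod f D D.support subset_rfl, ← Finset.prod_inv_distrib]
  exact Finset.prod_congr rfl fun P _ => by rw [Finsupp.neg_apply, zpow_neg]

theorem evalD_sub {f : F} {D E : Divisor K F} (hD : Disj f D) (hE : Disj f E) :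
    evalD f (D - E) = evalD f D / evalD f E := by
  rw [sub_eq_add_neg, evalD_add hD hE.neg, evalD_neg, div_eq_mul_inv]

theorem evalD_zsmul (f : F) (D : Divisor K F) (n : ℤ) : evalD f (n • D) = evalD f D ^ n := by
  rw [evalD_eq_prod f (n • D) D.support Finsupp.support_smul,
    evalD_eq_prod f D D.support subset_rfl, ← Finset.prod_zpow]
  exact Finset.prod_congr rfl fun P _ => by
    rw [Finsupp.smul_apply, smul_eq_mul, mul_comm, zpow_mul]

theorem evalD_nsmul (f : F) (D : Divisor K F) (n : ℕ) : evalD f (n • D) = evalD f D ^ n := by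
  rw [← natCast_zsmul, evalD_zsmul, zpow_natCast]

theorem evalD_mul {f g : F} {D : Divisor K F} (hf : Disj f D) (hg : Disj g D) :
    evalD (f * g) D = evalD f D * evalD g D := by
  rw [Defs_evalD_def, Defs_evalD_def, Defs_evalD_def, ← Finset.prod_mul_distrib]
  refine Finset.prod_congr rfl fun P hP => ?_
  have hP' := Finsupp.mem_support_iff.1 hP
  rw [val_mul P (hf.2 P hP').ge (hg.2 P hP').ge, mul_zpow]

theorem evalD_inv {f : F} {D : Divisor K F} (hf : Disj f D) : evalD f⁻¹ D = (evalD f D)⁻¹ := by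
  rw [Defs_evalD_def, Defs_evalD_def, ← Finset.prod_inv_distrib]
  refine Finset.prod_congr rfl fun P hP => ?_
  rw [val_inv hf.1 (hf.2 P (Finsupp.mem_support_iff.1 hP)), inv_zpow]

theorem evalD_div {f g : F} {D : Divisor K F} (hf : Disj f D) (hg : Disj g D) :
    evalD (f / g) D = evalD f D / evalD g D := by
  rw [div_eq_mul_inv, evalD_mul hf hg.inv, evalD_inv hg, div_eq_mul_inv]

theorem evalD_zpow {f : F} {D : Divisor K F} (hf : Disj f D) (n : ℤ) :
    evalD (f ^ n) D = evalD f D ^ n := by
  rw [Defs_evalD_def, Defs_evalD_def, ← Finset.prod_zpow]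
  refine Finset.prod_congr rfl fun P hP => ?_
  rw [val_zpow hf.1 (hf.2 P (Finsupp.mem_support_iff.1 hP)), ← zpow_mul, ← zpow_mul, mul_comm]

theorem evalD_pow {f : F} {D : Divisor K F} (hf : Disj f D) (n : ℕ) :
    evalD (f ^ n) D = evalD f D ^ n := by
  rw [← zpow_natCast, evalD_zpow hf, zpow_natCast]

/-- (`degree_eq_sum`) -/
theorem evalD_algebraMap {c : K} (hc : c ≠ 0) (D : Divisor K F) :
    evalD (algebraMap K F c) D = c ^ Divisor.degree D := by
  rw [degree_eq_sum, Defs_evalD_def]
  show _ = c ^ ∑ P ∈ D.support, D P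
  rw [← Defs_prod_zpow _ hc]
  exact Finset.prod_congr rfl fun P _ => by rw [val_algebraMap]

theorem evalD_algebraMap_of_degree_eq_zero {c : K} (hc : c ≠ 0) {D : Divisor K F}
    (h : Divisor.degree D = 0) :
    evalD (algebraMap K F c) D = 1 := by
  rw [evalD_algebraMap hc, h, zpow_zero]

/-- semilinear automorphisms (`val_smul`, `SemilinearAut.divisor_smul_apply`). -/
theorem evalD_smul (g : SemilinearAut K F) (f : F) (D : Divisor K F) :
    evalD (g • f) (g • D) = SemilinearAut.baseAut g (evalD f D) := by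
  unfold evalD
  rw [SemilinearAut.divisor_smul_def,
    Finsupp.prod_mapDomain_index_inj (MulAction.injective g)]
  show ∏ P ∈ D.support, val (g • P) (g • f) ^ D P =
    SemilinearAut.baseAut g (∏ P ∈ D.support, val P f ^ D P)
  rw [map_prod]
  exact Finset.prod_congr rfl fun P _ => by rw [val_smul, map_zpow₀]

theorem Disj.smul (g : SemilinearAut K F) {f : F} {D : Divisor K F} (h : Disj f D) :
    Disj (g • f) (g • D) := by
  refine ⟨fun h0 => h.1 ((smul_eq_zero_iff' g f).1 h0), fun P hP => ?_⟩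
  rw [SemilinearAut.divisor_smul_apply] at hP
  have := h.2 _ hP
  rwa [ord_smul_eq, inv_inv] at this

end Fermat.Agent.S19.W
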