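/-
S19 / W : Weil reciprocity on the projective line: `F = K(x)`, for the pair `(R, x)`.
-/
import Fermat.Agent.S19.W.Defs

set_option autoImplicit false
set_option linter.unusedSectionVars false

noncomputable section

namespace Fermat.Agent.S19.W

open AlgebraicCurve Fermat.Agent.S17.FF

variable {K F : Type*} [Field K] [Field F] [Algebra K F] [IsAlgClosed K] [CharZero K] [IsFF K F]
variable {x : F}

/-- `x` is transcendental (else `F = K(x) = K`, but `F` contains a transcendental element). -/
theorem Line_transcendental (hx : IntermediateField.adjoin K {x} = ⊤) : Transcendental K x := by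
  intro halg
  obtain ⟨c, rfl⟩ := Fermat.Agent.S24.Zeros.exists_algebraMap_eq_of_isAlgebraic halg
  obtain ⟨y, hy, -⟩ := IsFF.out (K := K) (F := F)
  have h1 : y ∈ (⊤ : IntermediateField K F) := IntermediateField.mem_top
  rw [← hx, IntermediateField.adjoin_simple_eq_bot_iff.2
    (IntermediateField.mem_bot.2 ⟨c, rfl⟩), IntermediateField.mem_bot] at h1
  obtain ⟨c', rfl⟩ := h1
  exact hy (isAlgebraic_algebraMap c')

theorem Line_finrank (hx : IntermediateField.adjoin K {x} = ⊤) :
    Module.finrank (IntermediateField.adjoin K {x}) F = 1 := by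
  rw [hx]
  exact IntermediateField.finrank_top

/-- a finite sum of positive integers equal to `1` has exactly one term. -/
theorem Line_aux_sum {α : Type*} (S : Set α) (hS : S.Finite) (f : α → ℤ)
    (hpos : ∀ v ∈ S, 0 < f v) (hsum : ∑ᶠ v ∈ S, f v = 1) :
    (∀ v ∈ S, f v = 1) ∧ (∀ v ∈ S, ∀ w ∈ S, v = w) := by
  classical
  rw [finsum_mem_eq_finite_toFinset_sum f hS] at hsum
  have hnn : ∀ u ∈ hS.toFinset, 0 ≤ f u := fun u hu => (hpos u (by simpa using hu)).le
  have key : ∀ v ∈ S, ∀ w ∈ S, v ≠ w → False := by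
    intro v hv w hw hne
    have h1 : f v + f w ≤ ∑ u ∈ hS.toFinset, f u := by
      have hsub : ({v, w} : Finset α) ⊆ hS.toFinset := by
        intro u hu
        rw [Finset.mem_insert, Finset.mem_singleton] at hu
        rcases hu with rfl | rfl <;> simpa
      calc f v + f w = ∑ u ∈ ({v, w} : Finset α), f u := (Finset.sum_pair hne).symm
        _ ≤ _ := Finset.sum_le_sum_of_subset_of_nonneg hsub (fun u hu _ => hnn u hu)
    have h2 := hpos v hv
    have h3 := hpos w hw
    omega
  refine ⟨fun v hv => ?_, fun v hv w hw => by_contra fun h => key v hv w hw h⟩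
  have h1 : f v ≤ ∑ u ∈ hS.toFinset, f u := Finset.single_le_sum hnn (by simpa using hv)
  have h2 := hpos v hv
  omega

theorem Line_finite_zeros (f : F) : {v : Place K F | 0 < v.ord f}.Finite :=
  (finite_support_ord' f).subset fun _ hv => ne_of_gt hv

theorem Line_finite_poles (f : F) : {v : Place K F | v.ord f < 0}.Finite :=
  (finite_support_ord' f).subset fun _ hv => ne_of_lt hv

theorem Line_sum_zeros (hx : IntermediateField.adjoin K {x} = ⊤) (a : K) :
    ∑ᶠ v ∈ {v : Place K F | 0 < v.ord (x - algebraMap K F a)}, v.ord (x - algebraMap K F a) = 1 := by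
  have hx' := Line_transcendental hx
  rw [Fermat.Agent.S24.Zeros.sum_ord_zeros_sub hx' (finiteDimensional_adjoin hx') a,
    Line_finrank hx, Nat.cast_one]

theorem Line_sum_poles (hx : IntermediateField.adjoin K {x} = ⊤) :
    ∑ᶠ v ∈ {v : Place K F | v.ord x < 0}, - v.ord x = 1 := by
  have hx' := Line_transcendental hx
  have h1 := Fermat.Agent.S24.Zeros.sum_ord_poles hx' (finiteDimensional_adjoin hx')
  rw [Line_finrank hx, Nat.cast_one] at h1
  rw [finsum_mem_neg_distrib, h1, neg_neg]
  exact Line_finite_poles (K := K) x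

/-- (L1) a zero of `x - a` is simple, and it is the only one
(`S24.Zeros.sum_ord_zeros_sub`: the sum of the positive orders is `[F : K(x)] = 1`). -/
theorem Line_ord_sub_eq_one (hx : IntermediateField.adjoin K {x} = ⊤) (a : K) {v : Place K F}
    (hv : 0 < v.ord (x - algebraMap K F a)) : v.ord (x - algebraMap K F a) = 1 := by
  exact (Line_aux_sum _ (Line_finite_zeros _) _ (fun _ h => h) (Line_sum_zeros hx a)).1 v hv

theorem Line_eq_of_ord_sub_pos (hx : IntermediateField.adjoin K {x} = ⊤) (a : K) {v w : Place K F}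
    (hv : 0 < v.ord (x - algebraMap K F a)) (hw : 0 < w.ord (x - algebraMap K F a)) : v = w := by
  exact (Line_aux_sum _ (Line_finite_zeros _) _ (fun _ h => h) (Line_sum_zeros hx a)).2 v hv w hw

/-- (L2) the same for the pole (`S24.Zeros.sum_ord_poles`). -/
theorem Line_ord_eq_neg_one (hx : IntermediateField.adjoin K {x} = ⊤) {v : Place K F}
    (hv : v.ord x < 0) : v.ord x = -1 := by
  have := (Line_aux_sum {v : Place K F | v.ord x < 0} (Line_finite_poles _) (fun v => - v.ord x)
    (fun _ h => neg_pos.2 h) (Line_sum_poles hx)).1 v hv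
  omega

theorem Line_eq_of_ord_neg (hx : IntermediateField.adjoin K {x} = ⊤) {v w : Place K F}
    (hv : v.ord x < 0) (hw : w.ord x < 0) : v = w := by
  exact (Line_aux_sum {v : Place K F | v.ord x < 0} (Line_finite_poles _) (fun v => - v.ord x)
    (fun _ h => neg_pos.2 h) (Line_sum_poles hx)).2 v hv w hw

theorem Line_exists_pole (hx : IntermediateField.adjoin K {x} = ⊤) : ∃ v : Place K F, v.ord x < 0 := by
  by_contra hcon
  have hS : {v : Place K F | v.ord x < 0} = ∅ := by
    ext v
    simp only [Set.mem_ofPred_eq, Set.mem_empty_iff_false, iff_false]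
    exact fun h => hcon ⟨v, h⟩
  have := Line_sum_poles hx
  rw [hS, finsum_mem_empty] at this
  omega

theorem Line_exists_zero (hx : IntermediateField.adjoin K {x} = ⊤) (a : K) :
    ∃ v : Place K F, 0 < v.ord (x - algebraMap K F a) := by
  by_contra hcon
  have hS : {v : Place K F | 0 < v.ord (x - algebraMap K F a)} = ∅ := by
    ext v
    simp only [Set.mem_ofPred_eq, Set.mem_empty_iff_false, iff_false]
    exact fun h => hcon ⟨v, h⟩
  have := Line_sum_zeros hx a
  rw [hS, finsum_mem_empty] at this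
  omega

theorem Line_ne_algebraMap (hx : IntermediateField.adjoin K {x} = ⊤) (a : K) :
    x ≠ algebraMap K F a := by
  intro h
  apply Line_transcendental hx
  rw [h]
  exact isAlgebraic_algebraMap a

/-- two places at which `x` is regular with the same value are equal. -/
theorem Line_eq_of_val_eq (hx : IntermediateField.adjoin K {x} = ⊤) {v w : Place K F}
    (hv : 0 ≤ v.ord x) (hw : 0 ≤ w.ord x) (h : val v x = val w x) : v = w := by
  have h1 := ((val_eq_iff v hv (val w x)).1 h).resolve_left (Line_ne_algebraMap hx _)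
  have h2 := ((val_eq_iff w hw (val w x)).1 rfl).resolve_left (Line_ne_algebraMap hx _)
  exact Line_eq_of_ord_sub_pos hx _ h1 h2

open Classical in
/-- the order of `x - a` at every place. -/
theorem Line_ord_sub (hx : IntermediateField.adjoin K {x} = ⊤) (a : K) (w : Place K F) :
    w.ord (x - algebraMap K F a) =
      if w.ord x < 0 then -1 else if val w x = a then 1 else 0 := by
  have hx0 : x ≠ 0 := by
    have := Line_ne_algebraMap hx 0
    rwa [map_zero] at this
  have hne : x + algebraMap K F (-a) ≠ 0 := by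
    rw [map_neg, ← sub_eq_add_neg, sub_ne_zero]
    exact Line_ne_algebraMap hx a
  have hsub : x - algebraMap K F a = x + algebraMap K F (-a) := by rw [map_neg, sub_eq_add_neg]
  split_ifs with h1 h2
  · rw [hsub, Fermat.Agent.S24.Zeros.ord_add_eq_of_lt w
      (by rw [Fermat.Agent.S24.Zeros.ord_algebraMap]; exact h1) hx0]
    exact Line_ord_eq_neg_one hx h1
  · have h3 := ((val_eq_iff w (not_lt.1 h1) a).1 h2).resolve_left (Line_ne_algebraMap hx _)
    exact Line_ord_sub_eq_one hx a h3
  · have h3 : ¬ 0 < w.ord (x - algebraMap K F a) := fun h =>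
      h2 ((val_eq_iff w (not_lt.1 h1) a).2 (Or.inr h))
    have h4 := Fermat.Agent.S24.Zeros.min_ord_le_ord_add w hne
    rw [Fermat.Agent.S24.Zeros.ord_algebraMap, ← hsub] at h4
    have h5 : 0 ≤ min (w.ord x) 0 := le_min (not_lt.1 h1) le_rfl
    omega

/-- `div x = (0) - (∞)`. -/
theorem Line_divf (hx : IntermediateField.adjoin K {x} = ⊤) {v₀ v₁ : Place K F}
    (h₀ : 0 < v₀.ord x) (h₁ : v₁.ord x < 0) :
    divf (K := K) x = Finsupp.single v₀ 1 - Finsupp.single v₁ 1 := by
  classical
  have hx0 : x - algebraMap K F 0 = x := by rw [map_zero, sub_zero]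
  have hne : v₀ ≠ v₁ := by
    rintro rfl
    omega
  refine Finsupp.ext fun w => ?_
  rw [divf_apply, Finsupp.sub_apply]
  by_cases hw0 : w = v₀
  · subst hw0
    rw [Finsupp.single_eq_same, Finsupp.single_eq_of_ne hne, sub_zero]
    have := Line_ord_sub_eq_one hx 0 (v := w) (by rw [hx0]; exact h₀)
    rwa [hx0] at this
  · by_cases hw1 : w = v₁
    · subst hw1
      rw [Finsupp.single_eq_same, Finsupp.single_eq_of_ne hne.symm, zero_sub]
      exact Line_ord_eq_neg_one hx h₁
    · rw [Finsupp.single_eq_of_ne hw0, Finsupp.single_eq_of_ne hw1, sub_zero]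
      rcases lt_trichotomy (w.ord x) 0 with h | h | h
      · exact absurd (Line_eq_of_ord_neg hx h h₁) hw1
      · exact h
      · exact absurd (Line_eq_of_ord_sub_pos hx 0 (by rw [hx0]; exact h) (by rw [hx0]; exact h₀)) hw0

theorem Line_prod_zpow {L ι : Type*} [Field L] {b : L} (hb : b ≠ 0) (s : Finset ι) (m : ι → ℤ) :
    ∏ i ∈ s, b ^ m i = b ^ ∑ i ∈ s, m i := by
  classical
  induction s using Finset.induction_on with
  | empty => simp
  | insert j s hj ih => rw [Finset.prod_insert hj, Finset.sum_insert hj, ih, zpow_add₀ hb]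

theorem Line_one_add (v : Place K F) {w : F} (hw : w = 0 ∨ 0 < v.ord w) :
    1 + w ≠ 0 ∧ v.ord (1 + w) = 0 ∧ val v (1 + w) = 1 := by
  have h1 : val v (1 : F) = 1 := by rw [← map_one (algebraMap K F), val_algebraMap]
  rcases hw with rfl | hw
  · rw [add_zero]
    exact ⟨one_ne_zero, v.ord_one, h1⟩
  · have hord : v.ord (1 + w) = 0 := by
      rw [Fermat.Agent.S24.Zeros.ord_add_eq_of_lt v (by rw [v.ord_one]; exact hw) one_ne_zero,
        v.ord_one]
    refine ⟨?_, hord, ?_⟩
    · intro h0
      have e : w = algebraMap K F (-1) := by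
        rw [map_neg, map_one]
        exact eq_neg_of_add_eq_zero_right h0
      rw [e, Fermat.Agent.S24.Zeros.ord_algebraMap] at hw
      exact lt_irrefl _ hw
    · rw [val_add v (by rw [v.ord_one]) hw.le, h1, (val_eq_zero_iff v hw.le).mpr (Or.inr hw),
        add_zero]

theorem Line_sum_ord (R : F) : ∑ v ∈ (divf (K := K) R).support, v.ord R = 0 := by
  have hdeg := degree_divf (K := K) R
  rw [degree_eq_sum] at hdeg
  exact hdeg

/-- (L3) a function without zero or pole at `∞` is `c ∏ (x - x(v))^{ord_v R}`.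
[the quotient has trivial divisor: `Line_ord_sub`, `Line_eq_of_val_eq`, at `∞`: `degree_divf`;
`exists_const_of_ord_nonneg`.] -/
theorem Line_eq_prod (hx : IntermediateField.adjoin K {x} = ⊤) {R : F} (hR : R ≠ 0)
    (h : ∀ v : Place K F, v.ord x < 0 → v.ord R = 0) :
    ∃ c : K, c ≠ 0 ∧ R = algebraMap K F c *
      ∏ v ∈ (divf (K := K) R).support, (x - algebraMap K F (val v x)) ^ (v.ord R) := by
  classical
  have htr := Line_transcendental hx
  have hne : ∀ a : K, x - algebraMap K F a ≠ 0 := fun a h0 => by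
    apply htr
    rw [sub_eq_zero.mp h0]
    exact isAlgebraic_algebraMap a
  have hmemS : ∀ v, v ∈ (divf (K := K) R).support ↔ v.ord R ≠ 0 := fun v => by
    rw [Finsupp.mem_support_iff, divf_apply]
  have hP0 : ∏ v ∈ (divf (K := K) R).support, (x - algebraMap K F (val v x)) ^ (v.ord R) ≠ 0 :=
    Finset.prod_ne_zero_iff.mpr fun v _ => zpow_ne_zero _ (hne _)
  have hordP : ∀ w : Place K F,
      w.ord (∏ v ∈ (divf (K := K) R).support, (x - algebraMap K F (val v x)) ^ (v.ord R)) =
        w.ord R := by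
    intro w
    rw [ord_prod _ w _ (fun v _ => zpow_ne_zero _ (hne _))]
    by_cases hw : w.ord x < 0
    · rw [h w hw]
      have h1 : ∀ v ∈ (divf (K := K) R).support,
          w.ord ((x - algebraMap K F (val v x)) ^ v.ord R) = - v.ord R := fun v _ => by
        rw [w.ord_zpow, Line_ord_sub hx, if_pos hw]
        ring
      rw [Finset.sum_congr rfl h1, Finset.sum_neg_distrib, Line_sum_ord, neg_zero]
    · have h1 : ∀ v ∈ (divf (K := K) R).support,
          w.ord ((x - algebraMap K F (val v x)) ^ v.ord R) = if w = v then v.ord R else 0 :=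
        fun v hv => by
          rw [w.ord_zpow, Line_ord_sub hx, if_neg hw]
          have hvx : 0 ≤ v.ord x := by
            by_contra hneg
            exact (hmemS v).mp hv (h v (not_le.mp hneg))
          by_cases hwv : w = v
          · subst hwv
            rw [if_pos rfl, if_pos rfl, mul_one]
          · rw [if_neg hwv,
              if_neg (fun he => hwv (Line_eq_of_val_eq hx (not_lt.mp hw) hvx he)), mul_zero]
      rw [Finset.sum_congr rfl h1, Finset.sum_ite_eq]
      split_ifs with hwS
      · rfl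
      · by_contra hne'
        exact hwS ((hmemS w).mpr (Ne.symm hne'))
  obtain ⟨c, hc⟩ := exists_const_of_ord_nonneg (K := K)
    (f := R * (∏ v ∈ (divf (K := K) R).support,
      (x - algebraMap K F (val v x)) ^ (v.ord R))⁻¹) (fun w => by
    rw [w.ord_mul hR (inv_ne_zero hP0), w.ord_inv, hordP]
    omega)
  refine ⟨c, ?_, ?_⟩
  · rintro rfl
    rw [map_zero] at hc
    exact mul_ne_zero hR (inv_ne_zero hP0) hc
  · rw [← hc, inv_mul_cancel_right₀ hP0]

/-- value at `∞` of a product of degree `0`:
`∏ (x - a_i)^{m_i} = ∏ (1 - a_i / x)^{m_i}` if `∑ m_i = 0`. -/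
theorem Line_val_pole {ι : Type*} (s : Finset ι) (a : ι → K) (m : ι → ℤ) (hm : ∑ i ∈ s, m i = 0)
    {v : Place K F} (hv : v.ord x < 0) :
    v.ord (∏ i ∈ s, (x - algebraMap K F (a i)) ^ m i) = 0 ∧
      val v (∏ i ∈ s, (x - algebraMap K F (a i)) ^ m i) = 1 := by
  classical
  have hx0 : x ≠ 0 := by
    rintro rfl
    simp at hv
  have hxinv : 0 < v.ord x⁻¹ := by
    rw [v.ord_inv]
    omega
  have hu : ∀ i, 1 + algebraMap K F (-(a i)) * x⁻¹ ≠ 0 ∧
      v.ord (1 + algebraMap K F (-(a i)) * x⁻¹) = 0 ∧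
      val v (1 + algebraMap K F (-(a i)) * x⁻¹) = 1 := fun i => by
    apply Line_one_add
    by_cases ha : a i = 0
    · left
      rw [ha, neg_zero, map_zero, zero_mul]
    · right
      rw [v.ord_mul (by simpa using ha) (inv_ne_zero hx0), Fermat.Agent.S24.Zeros.ord_algebraMap,
        zero_add]
      exact hxinv
  have hfac : ∀ i, x - algebraMap K F (a i) = x * (1 + algebraMap K F (-(a i)) * x⁻¹) :=
    fun i => by
      rw [map_neg]
      field_simp
      ring
  have hprod : ∏ i ∈ s, (x - algebraMap K F (a i)) ^ m i =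
      x ^ (∑ i ∈ s, m i) * ∏ i ∈ s, (1 + algebraMap K F (-(a i)) * x⁻¹) ^ m i := by
    rw [← Line_prod_zpow hx0, ← Finset.prod_mul_distrib]
    exact Finset.prod_congr rfl fun i _ => by rw [hfac, mul_zpow]
  rw [hprod, hm, zpow_zero, one_mul]
  constructor
  · rw [ord_prod s v _ (fun i _ => zpow_ne_zero _ (hu i).1)]
    exact Finset.sum_eq_zero fun i _ => by rw [v.ord_zpow, (hu i).2.1, mul_zero]
  · rw [val_prod s v _ (fun i _ => by rw [v.ord_zpow, (hu i).2.1, mul_zero])]
    exact Finset.prod_eq_one fun i _ => by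
      rw [val_zpow (hu i).1 (hu i).2.1, (hu i).2.2, one_zpow]

/-- **Weil reciprocity on the line** for the pair `(R, x)`.
[`Line_eq_prod`; `R(0) = c ∏ (-a_v)^{m_v}`, `R(∞) = c`, `∑ m_v = 0` (`degree_divf`), so
`R(0)/R(∞) = ∏ a_v^{m_v}`.] -/
theorem weil_line (hx : IntermediateField.adjoin K {x} = ⊤) {R : F} (hR : R ≠ 0)
    (h : ∀ v : Place K F, v.ord x ≠ 0 → v.ord R = 0) :
    evalD R (divf (K := K) x) = evalD x (divf (K := K) R) := by
  classical
  obtain ⟨v₀, hv₀⟩ := Line_exists_zero hx 0
  rw [map_zero, sub_zero] at hv₀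
  obtain ⟨v₁, hv₁⟩ := Line_exists_pole hx
  obtain ⟨c, hc0, hRc⟩ := Line_eq_prod hx hR (fun v hv => h v hv.ne)
  have hmemS : ∀ v, v ∈ (divf (K := K) R).support ↔ v.ord R ≠ 0 := fun v => by
    rw [Finsupp.mem_support_iff, divf_apply]
  have hsum := Line_sum_ord (K := K) R
  have hS0 : ∀ v ∈ (divf (K := K) R).support, v.ord x = 0 := fun v hv => by
    by_contra hne
    exact (hmemS v).mp hv (h v hne)
  have hx0 : x ≠ 0 := by
    rintro rfl
    simp at hv₁
  have ha : ∀ v ∈ (divf (K := K) R).support, val v x ≠ 0 := fun v hv =>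
    val_ne_zero_of_ord_eq_zero hx0 (hS0 v hv)
  have hD : ∀ w : Place K F, w.ord x ≠ 0 → Disj R (Finsupp.single w (1 : ℤ)) := by
    intro w hw
    refine ⟨hR, fun P hP => ?_⟩
    by_cases hPw : w = P
    · rw [← hPw]
      exact h w hw
    · rw [Finsupp.single_apply, if_neg hPw] at hP
      exact absurd rfl hP
  rw [Line_divf hx hv₀ hv₁, evalD_sub (hD v₀ hv₀.ne') (hD v₁ hv₁.ne), evalD_single, evalD_single,
    zpow_one, zpow_one, evalD_eq_prod x _ _ (Finset.Subset.refl _)]
  simp only [divf_apply]
  -- the value at the pole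
  obtain ⟨ho, hv⟩ := Line_val_pole (divf (K := K) R).support (fun v => val v x)
    (fun v => v.ord R) hsum hv₁
  have h1 : val v₁ R = c := by
    conv_lhs => rw [hRc]
    rw [val_mul v₁ (by rw [Fermat.Agent.S24.Zeros.ord_algebraMap]) ho.ge, val_algebraMap, hv,
      mul_one]
  -- the value at the zero
  have hval0 : val v₀ x = 0 := (val_eq_zero_iff v₀ hv₀.le).mpr (Or.inr hv₀)
  have hne : ∀ v ∈ (divf (K := K) R).support, x - algebraMap K F (val v x) ≠ 0 := by
    intro v hv h0
    have h2 : v₀.ord x = 0 := by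
      rw [sub_eq_zero.mp h0, Fermat.Agent.S24.Zeros.ord_algebraMap]
    omega
  have hord0 : ∀ v ∈ (divf (K := K) R).support, v₀.ord (x - algebraMap K F (val v x)) = 0 := by
    intro v hv
    rw [Line_ord_sub hx, if_neg (by omega), if_neg]
    rw [hval0]
    exact (ha v hv).symm
  have hvalsub : ∀ v ∈ (divf (K := K) R).support,
      val v₀ (x - algebraMap K F (val v x)) = -1 * val v x := by
    intro v _
    rw [sub_eq_add_neg, ← map_neg, val_add v₀ hv₀.le
      (by rw [Fermat.Agent.S24.Zeros.ord_algebraMap]), hval0, val_algebraMap]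
    ring
  have h0 : val v₀ R = c * ∏ v ∈ (divf (K := K) R).support, val v x ^ v.ord R := by
    conv_lhs => rw [hRc]
    have hordP : ∀ v ∈ (divf (K := K) R).support,
        0 ≤ v₀.ord ((x - algebraMap K F (val v x)) ^ v.ord R) := fun v hv => by
      rw [v₀.ord_zpow, hord0 v hv, mul_zero]
    have hordP' : 0 ≤ v₀.ord (∏ v ∈ (divf (K := K) R).support,
        (x - algebraMap K F (val v x)) ^ v.ord R) := by
      rw [ord_prod _ v₀ _ (fun v hv => zpow_ne_zero _ (hne v hv))]
      exact Finset.sum_nonneg hordP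
    rw [val_mul v₀ (by rw [Fermat.Agent.S24.Zeros.ord_algebraMap]) hordP', val_algebraMap,
      val_prod _ v₀ _ hordP]
    congr 1
    have e : ∀ v ∈ (divf (K := K) R).support,
        val v₀ ((x - algebraMap K F (val v x)) ^ v.ord R) =
          (-1 : K) ^ v.ord R * val v x ^ v.ord R := fun v hv => by
      rw [val_zpow (hne v hv) (hord0 v hv), hvalsub v hv, mul_zpow]
    rw [Finset.prod_congr rfl e, Finset.prod_mul_distrib,
      Line_prod_zpow (neg_ne_zero.mpr one_ne_zero), hsum, zpow_zero, one_mul]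
  rw [h0, h1, mul_div_cancel_left₀ _ hc0]

end Fermat.Agent.S19.W
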