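/-
S19 / W : the value of a norm at a place: `(N f)(v) = ∏_{w | v} f(w)^{e_w}`.

PROOF.  `Ω` = an algebraic closure of `F`, `𝒱` a valuation subring of `Ω` with `𝒱 ∩ F = O_v`.
`N f = ∏_σ σ f` (`σ : F' →ₐ[F] Ω`).  `𝒱.comap σ` is the valuation ring of a place `w_σ | v`, and
`σ f ≡ f(w_σ) mod 𝔪_𝒱`.  So `(N f)(v) = ∏_σ f(w_σ) = ∏_w f(w)^{c_w}`, `c_w = #{σ : w_σ = w}`.
`c_w = e_w`: take `π ∈ F'` with `ord_w π = 1`, `ord_{w'} π = 0` for the other `w' | v`.  `t := N π` has `ord_v t = 1`
(`GR.S.ord_norm_eq_sum`).  `σ π ∈ 𝒱ˣ` if `w_σ ≠ w`; `(σ π)^{e_w} / t ∈ 𝒱ˣ` if `w_σ = w`.  So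
`t^{e_w} = ∏_σ (σ π)^{e_w} = unit * t^{c_w}`, and `t` is a nonzero nonunit of `𝒱`.
-/
import Fermat.Agent.S19.W.Defs
import Fermat.Agent.GR.S.FF.NormFormula
import Fermat.Agent.S17.FF.Count

set_option autoImplicit false
set_option linter.unusedSectionVars false

noncomputable section

namespace Fermat.Agent.S19.W

open AlgebraicCurve Fermat.Agent.S17.FF

variable {K F F' : Type*} [Field K] [IsAlgClosed K] [CharZero K] [Field F] [Algebra K F]
  [Field F'] [Algebra K F'] [IsFF K F] [IsFF K F'] [Algebra F F'] [IsScalarTower K F F']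
  [Module.Finite F F'] [HasPrincipalDivisors K F']

/-- (V1) a valuation subring of the algebraic closure above `O_v`.
[`LocalSubring.exists_le_valuationSubring` applied to the image of `O_v` (`LocalSubring.map` / `range`);
domination gives `O_v ≤ 𝒱 ∩ F ≠ ⊤`, and `O_v` is a maximal proper valuation subring
(`ValuationSubring.eq_of_le_of_ne_top`-type lemma as in `S24.induced_exists_heightOne`, or directly:
`f ∉ O_v ⟹ f⁻¹ ∈ 𝔪_v ⊆ 𝔪_𝒱 ⟹ f ∉ 𝒱`).] -/
theorem exists_valuationSubring_above (v : Place K F) :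
    ∃ 𝒱 : ValuationSubring (AlgebraicClosure F),
      𝒱.comap (algebraMap F (AlgebraicClosure F)) = v.toValuationSubring := by
  obtain ⟨𝒱, h, hloc⟩ := IsLocalRing.exists_factor_valuationRing
    ((algebraMap F (AlgebraicClosure F)).comp v.toValuationSubring.subtype)
  refine ⟨𝒱, ?_⟩
  ext x
  rw [ValuationSubring.mem_comap]
  constructor
  · intro hx
    by_contra hxv
    have hx0 : x ≠ 0 := by
      rintro rfl
      exact hxv (zero_mem _)
    have hinv : x⁻¹ ∈ v.toValuationSubring := (v.toValuationSubring.mem_or_inv_mem x).resolve_left hxv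
    have hunit : IsUnit ((((algebraMap F (AlgebraicClosure F)).comp
        v.toValuationSubring.subtype).codRestrict 𝒱.toSubring h) ⟨x⁻¹, hinv⟩) := by
      refine IsUnit.of_mul_eq_one ⟨algebraMap F (AlgebraicClosure F) x, hx⟩ (Subtype.ext ?_)
      show algebraMap F (AlgebraicClosure F) x⁻¹ * algebraMap F (AlgebraicClosure F) x = 1
      rw [← map_mul, inv_mul_cancel₀ hx0, map_one]
    obtain ⟨u, hu⟩ := hloc.map_nonunit _ hunit
    apply hxv
    have h1 : ((u⁻¹ : (v.toValuationSubring)ˣ) : v.toValuationSubring).1 = x := by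
      have h2 : ((u : v.toValuationSubring) : F) * ((u⁻¹ : (v.toValuationSubring)ˣ) :
          v.toValuationSubring).1 = 1 := congrArg Subtype.val u.mul_inv
      rw [hu] at h2
      have h3 : x⁻¹ * ((u⁻¹ : (v.toValuationSubring)ˣ) : v.toValuationSubring).1 = 1 := h2
      field_simp at h3
      exact h3
    rw [← h1]
    exact Subtype.property _
  · intro hx
    exact h ⟨x, hx⟩

/-- a proper valuation subring containing a Dedekind domain with the same fraction field is the
valuation ring of a maximal ideal (`S24.induced_exists_heightOne`, universe polymorphic). -/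
theorem Val_exists_heightOne {L : Type*} [Field L] {R : Type*} [CommRing R] [IsDedekindDomain R]
    [Algebra R L] [IsFractionRing R L] (O : ValuationSubring L)
    (hR : ∀ r : R, algebraMap R L r ∈ O) (hO : O ≠ ⊤) :
    ∃ w : IsDedekindDomain.HeightOneSpectrum R, (w.valuation L).valuationSubring = O := by
  let j : R →+* O := (algebraMap R L).codRestrict O.toSubring hR
  let P : Ideal R := (IsLocalRing.maximalIdeal O).comap j
  have hPmem : ∀ r : R, r ∈ P ↔ O.valuation (algebraMap R L r) < 1 := by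
    intro r
    rw [Ideal.mem_comap]
    exact (O.valuation_lt_one_iff (j r))
  have hPprime : P.IsPrime := Ideal.comap_isPrime j _
  have hPne : P ≠ ⊥ := by
    intro hbot
    apply hO
    rw [eq_top_iff]
    intro f _
    obtain ⟨a, s, hs, rfl⟩ := IsFractionRing.div_surjective (A := R) f
    have hs0 : s ≠ 0 := nonZeroDivisors.ne_zero hs
    have hsP : s ∉ P := by rw [hbot]; simpa using hs0
    rw [hPmem, not_lt] at hsP
    have h1 : O.valuation (algebraMap R L s) = 1 :=
      le_antisymm ((O.valuation_le_one_iff _).2 (hR s)) hsP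
    rw [← O.valuation_le_one_iff, map_div₀, h1, div_one, O.valuation_le_one_iff]
    exact hR a
  let w : IsDedekindDomain.HeightOneSpectrum R := ⟨P, hPprime, hPne⟩
  refine ⟨w, ?_⟩
  rw [← IsDedekindDomain.HeightOneSpectrum.valuationSubringAtPrime_eq_valuationSubring]
  refine ValuationSubring.eq_of_le_of_ne_top _ ?_ hO
  rw [IsDedekindDomain.HeightOneSpectrum.valuationSubringAtPrime_eq_valuationSubring]
  intro f hf
  obtain ⟨n, d, hnd⟩ := w.exists_primeCompl_mul_eq_of_integer f hf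
  have hdP : (d : R) ∉ P := d.2
  rw [hPmem, not_lt] at hdP
  have h1 : O.valuation (algebraMap R L d) = 1 :=
    le_antisymm ((O.valuation_le_one_iff _).2 (hR d)) hdP
  rw [← O.valuation_le_one_iff]
  have : O.valuation (f * algebraMap R L d) = O.valuation f := by rw [map_mul, h1, mul_one]
  rw [← this, hnd, O.valuation_le_one_iff]
  exact hR n

variable {v : Place K F} {𝒱 : ValuationSubring (AlgebraicClosure F)}

/-- (V2) the place of `F'` cut out by an embedding.
[`𝒲 := 𝒱.comap σ` contains `K` and `B` = integral closure of `O_v` in `F'` (a Dedekind domain, see the proof of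
`GR.S.ord_norm_eq_sum`), `𝒲 ≠ ⊤`; `S24.induced_exists_heightOne`-type argument,
`Place.ofHeightOneSpectrum`; or: choose `x ∈ F` with a pole only at ... and use `S24.Zeros.exists_center`.] -/
theorem exists_place_of_emb (h𝒱 : 𝒱.comap (algebraMap F (AlgebraicClosure F)) = v.toValuationSubring)
    (σ : F' →ₐ[F] AlgebraicClosure F) :
    ∃ w : Place K F', w ∈ v.fiber F' ∧ w.toValuationSubring = 𝒱.comap (σ : F' →+* AlgebraicClosure F) := by
  set 𝒲 : ValuationSubring F' := 𝒱.comap (σ : F' →+* AlgebraicClosure F) with h𝒲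
  have hcomap : 𝒲.comap (algebraMap F F') = v.toValuationSubring := by
    rw [← h𝒱]
    ext x
    simp only [h𝒲, ValuationSubring.mem_comap, RingHom.coe_coe, AlgHom.commutes]
  have htop : 𝒲 ≠ ⊤ := by
    intro h
    apply v.ne_top'
    rw [← hcomap, h]
    ext x
    simp [ValuationSubring.mem_comap]
  let _ : Algebra v.toValuationSubring F' :=
    ((algebraMap F F').comp (algebraMap v.toValuationSubring F)).toAlgebra
  have : IsScalarTower v.toValuationSubring F F' := IsScalarTower.of_algebraMap_eq fun _ => rfl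
  have : IsScalarTower K v.toValuationSubring F' := IsScalarTower.of_algebraMap_eq fun k => by
    rw [IsScalarTower.algebraMap_apply K F F']
    rfl
  have : CharZero F := charZero_of_injective_algebraMap (algebraMap K F).injective
  have : IsDedekindDomain (integralClosure v.toValuationSubring F') :=
    integralClosure.isDedekindDomain v.toValuationSubring F F'
  have : IsFractionRing (integralClosure v.toValuationSubring F') F' :=
    integralClosure.isFractionRing_of_finite_extension F F'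
  have hA : ∀ a : v.toValuationSubring, algebraMap v.toValuationSubring F' a ∈ 𝒲 := by
    intro a
    have : (a : F) ∈ 𝒲.comap (algebraMap F F') := by rw [hcomap]; exact a.2
    exact this
  have hB : ∀ r : integralClosure v.toValuationSubring F',
      algebraMap (integralClosure v.toValuationSubring F') F' r ∈ 𝒲 := by
    intro r
    let φ : v.toValuationSubring →+* 𝒲 :=
      (algebraMap v.toValuationSubring F').codRestrict 𝒲.toSubring hA
    have hint : IsIntegral 𝒲 (r : F') := by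
      obtain ⟨p, hp, hpr⟩ := r.2
      refine ⟨p.map φ, hp.map φ, ?_⟩
      rw [Polynomial.eval₂_map]
      exact hpr
    obtain ⟨y, hy⟩ := IsIntegrallyClosed.isIntegral_iff.1 hint
    show (r : F') ∈ 𝒲
    rw [← hy]
    exact y.2
  obtain ⟨P, hP⟩ := Val_exists_heightOne 𝒲 hB htop
  refine ⟨Place.ofHeightOneSpectrum (K := K) P, ?_, hP⟩
  rw [Place.mem_fiber]
  apply Place.ext
  rw [Place.restrict_toValuationSubring, Place.ofHeightOneSpectrum_toValuationSubring, hP, hcomap]

/-- the place `w_σ`. -/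
def placeOfEmb (h𝒱 : 𝒱.comap (algebraMap F (AlgebraicClosure F)) = v.toValuationSubring)
    (σ : F' →ₐ[F] AlgebraicClosure F) : Place K F' := (exists_place_of_emb h𝒱 σ).choose

theorem placeOfEmb_mem_fiber
    (h𝒱 : 𝒱.comap (algebraMap F (AlgebraicClosure F)) = v.toValuationSubring)
    (σ : F' →ₐ[F] AlgebraicClosure F) : placeOfEmb h𝒱 σ ∈ v.fiber F' :=
  (exists_place_of_emb h𝒱 σ).choose_spec.1

theorem placeOfEmb_toValuationSubring
    (h𝒱 : 𝒱.comap (algebraMap F (AlgebraicClosure F)) = v.toValuationSubring)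
    (σ : F' →ₐ[F] AlgebraicClosure F) :
    (placeOfEmb h𝒱 σ).toValuationSubring = 𝒱.comap (σ : F' →+* AlgebraicClosure F) :=
  (exists_place_of_emb h𝒱 σ).choose_spec.2

/-- `σ f ∈ 𝒱 ↔ 0 ≤ ord_{w_σ} f`. -/
theorem emb_mem_iff (h𝒱 : 𝒱.comap (algebraMap F (AlgebraicClosure F)) = v.toValuationSubring)
    (σ : F' →ₐ[F] AlgebraicClosure F) (f : F') : σ f ∈ 𝒱 ↔ 0 ≤ (placeOfEmb h𝒱 σ).ord f := by
  rw [← Fermat.Agent.S24.Zeros.mem_iff_ord_nonneg', placeOfEmb_toValuationSubring]
  rfl

/-- `σ f ∈ 𝔪_𝒱 ↔ f = 0 ∨ 0 < ord_{w_σ} f`. -/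
theorem emb_mem_nonunits_iff
    (h𝒱 : 𝒱.comap (algebraMap F (AlgebraicClosure F)) = v.toValuationSubring)
    (σ : F' →ₐ[F] AlgebraicClosure F) (f : F') :
    σ f ∈ 𝒱.nonunits ↔ f = 0 ∨ 0 < (placeOfEmb h𝒱 σ).ord f := by
  rw [ValuationSubring.mem_nonunits_iff_or, ← map_inv₀, emb_mem_iff h𝒱, Place.ord_inv,
    map_eq_zero, not_le, neg_lt_zero]

/-- (V3) `σ f ≡ f(w_σ) mod 𝔪_𝒱`  (`val_eq_iff`). -/
theorem emb_sub_val_mem_nonunits
    (h𝒱 : 𝒱.comap (algebraMap F (AlgebraicClosure F)) = v.toValuationSubring)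
    (σ : F' →ₐ[F] AlgebraicClosure F) {f : F'} (hf : 0 ≤ (placeOfEmb h𝒱 σ).ord f) :
    σ f - algebraMap K (AlgebraicClosure F) (val (placeOfEmb h𝒱 σ) f) ∈ 𝒱.nonunits := by
  have e : algebraMap K (AlgebraicClosure F) (val (placeOfEmb h𝒱 σ) f) =
      σ (algebraMap K F' (val (placeOfEmb h𝒱 σ) f)) := by
    rw [IsScalarTower.algebraMap_apply K F F', σ.commutes,
      ← IsScalarTower.algebraMap_apply K F (AlgebraicClosure F)]
  rw [e, ← map_sub, emb_mem_nonunits_iff h𝒱, sub_eq_zero]
  exact (val_eq_iff _ hf _).1 rfl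

/-- `f ∈ 𝔪_𝒱 ↔ f = 0 ∨ 0 < ord_v f` for `f ∈ F`. -/
theorem Val_algebraMap_mem_nonunits_iff
    (h𝒱 : 𝒱.comap (algebraMap F (AlgebraicClosure F)) = v.toValuationSubring) (f : F) :
    algebraMap F (AlgebraicClosure F) f ∈ 𝒱.nonunits ↔ f = 0 ∨ 0 < v.ord f := by
  have h1 : ∀ g : F, algebraMap F (AlgebraicClosure F) g ∈ 𝒱 ↔ 0 ≤ v.ord g := by
    intro g
    rw [← Fermat.Agent.S24.Zeros.mem_iff_ord_nonneg', ← h𝒱]
    rfl
  rw [ValuationSubring.mem_nonunits_iff_or, ← map_inv₀, h1, Place.ord_inv, map_eq_zero, not_le,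
    neg_lt_zero]

/-- the same for `F` itself. -/
theorem algebraMap_sub_val_mem_nonunits
    (h𝒱 : 𝒱.comap (algebraMap F (AlgebraicClosure F)) = v.toValuationSubring)
    {f : F} (hf : 0 ≤ v.ord f) :
    algebraMap F (AlgebraicClosure F) f - algebraMap K (AlgebraicClosure F) (val v f) ∈ 𝒱.nonunits := by
  rw [IsScalarTower.algebraMap_apply K F (AlgebraicClosure F), ← map_sub,
    Val_algebraMap_mem_nonunits_iff h𝒱, sub_eq_zero]
  exact (val_eq_iff _ hf _).1 rfl

/-- (V4) constants in `𝔪_𝒱` vanish. -/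
theorem eq_zero_of_algebraMap_mem_nonunits
    (h𝒱 : 𝒱.comap (algebraMap F (AlgebraicClosure F)) = v.toValuationSubring) {c : K}
    (hc : algebraMap K (AlgebraicClosure F) c ∈ 𝒱.nonunits) : c = 0 := by
  rw [IsScalarTower.algebraMap_apply K F (AlgebraicClosure F),
    Val_algebraMap_mem_nonunits_iff h𝒱, Fermat.Agent.S24.Zeros.ord_algebraMap] at hc
  rcases hc with hc | hc
  · exact (map_eq_zero _).1 hc
  · exact absurd hc (lt_irrefl _)

/-- congruences multiply (pure valuation ring algebra: work in `𝒱 ⧸ 𝔪`, or induction on `s`). -/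
theorem prod_sub_prod_mem_nonunits {L : Type*} [Field L] (𝒲 : ValuationSubring L) {ι : Type*}
    (s : Finset ι) (a b : ι → L) (hb : ∀ i ∈ s, b i ∈ 𝒲) (h : ∀ i ∈ s, a i - b i ∈ 𝒲.nonunits) :
    ∏ i ∈ s, a i - ∏ i ∈ s, b i ∈ 𝒲.nonunits := by
  classical
  have hmul : ∀ x y : L, x ∈ 𝒲 → y ∈ 𝒲.nonunits → x * y ∈ 𝒲.nonunits := by
    intro x y hx hy
    obtain ⟨hy', hy''⟩ := ValuationSubring.mem_nonunits_iff_exists_mem_maximalIdeal.1 hy
    exact ValuationSubring.mem_nonunits_iff_exists_mem_maximalIdeal.2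
      ⟨𝒲.mul_mem _ _ hx hy', Ideal.mul_mem_left _ ⟨x, hx⟩ hy''⟩
  induction s using Finset.induction_on with
  | empty => simp
  | insert i s hi ih =>
    have ha : ∀ j ∈ s, a j ∈ 𝒲 := by
      intro j hj
      have h1 := ValuationSubring.nonunits_subset (h j (Finset.mem_insert_of_mem hj))
      have h2 := 𝒲.add_mem _ _ h1 (hb j (Finset.mem_insert_of_mem hj))
      rwa [sub_add_cancel] at h2
    have ih' := ih (fun j hj => hb j (Finset.mem_insert_of_mem hj))
      (fun j hj => h j (Finset.mem_insert_of_mem hj))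
    rw [Finset.prod_insert hi, Finset.prod_insert hi]
    have e : a i * ∏ j ∈ s, a j - b i * ∏ j ∈ s, b j =
        (∏ j ∈ s, a j) * (a i - b i) + b i * (∏ j ∈ s, a j - ∏ j ∈ s, b j) := by ring
    rw [e]
    exact 𝒲.nonunits.add_mem (hmul _ _ (prod_mem ha) (h i (Finset.mem_insert_self i s)))
      (hmul _ _ (hb i (Finset.mem_insert_self i s)) ih')

/-- (V5) (`Algebra.norm_eq_prod_embeddings`) -/
theorem val_norm_eq_prod_emb
    (h𝒱 : 𝒱.comap (algebraMap F (AlgebraicClosure F)) = v.toValuationSubring)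
    (f : F') (hf : ∀ w ∈ v.fiber F', 0 ≤ w.ord f) :
    val v (Algebra.norm F f) = ∏ σ : F' →ₐ[F] AlgebraicClosure F, val (placeOfEmb h𝒱 σ) f := by
  have : CharZero F := charZero_of_injective_algebraMap (algebraMap K F).injective
  have hnorm : algebraMap F (AlgebraicClosure F) (Algebra.norm F f) =
      ∏ σ : F' →ₐ[F] AlgebraicClosure F, σ f := Algebra.norm_eq_prod_embeddings F _ f
  have hσ : ∀ σ : F' →ₐ[F] AlgebraicClosure F, 0 ≤ (placeOfEmb h𝒱 σ).ord f :=
    fun σ => hf _ (placeOfEmb_mem_fiber h𝒱 σ)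
  have hn : 0 ≤ v.ord (Algebra.norm F f) := by
    rw [← Fermat.Agent.S24.Zeros.mem_iff_ord_nonneg', ← h𝒱]
    show algebraMap F (AlgebraicClosure F) (Algebra.norm F f) ∈ 𝒱
    rw [hnorm]
    exact prod_mem fun σ _ => (emb_mem_iff h𝒱 σ f).2 (hσ σ)
  have hconst : ∀ c : K, algebraMap K (AlgebraicClosure F) c ∈ 𝒱 := by
    intro c
    rw [IsScalarTower.algebraMap_apply K F (AlgebraicClosure F)]
    show algebraMap K F c ∈ 𝒱.comap (algebraMap F (AlgebraicClosure F))
    rw [h𝒱, Fermat.Agent.S24.Zeros.mem_iff_ord_nonneg', Fermat.Agent.S24.Zeros.ord_algebraMap]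
  have h1 := algebraMap_sub_val_mem_nonunits h𝒱 hn
  have h2 := prod_sub_prod_mem_nonunits 𝒱 Finset.univ (fun σ : F' →ₐ[F] AlgebraicClosure F => σ f)
    (fun σ => algebraMap K (AlgebraicClosure F) (val (placeOfEmb h𝒱 σ) f))
    (fun σ _ => hconst _) (fun σ _ => emb_sub_val_mem_nonunits h𝒱 σ (hσ σ))
  rw [← hnorm, ← map_prod] at h2
  have h3 := 𝒱.nonunits.sub_mem h2 h1
  rw [sub_sub_sub_cancel_left, ← map_sub] at h3
  exact sub_eq_zero.1 (eq_zero_of_algebraMap_mem_nonunits h𝒱 h3)

/-- a function with a simple zero at `w` and no zero or pole at the other places over `v`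
(`exists_mem_affRing_ord_eq_one` with `oo` a place outside the fibre: `infinite_place`). -/
theorem exists_unif_fiber (v : Place K F) {w : Place K F'} (hw : w ∈ v.fiber F') :
    ∃ π : F', w.ord π = 1 ∧ ∀ w' ∈ v.fiber F', w' ≠ w → w'.ord π = 0 := by
  classical
  have : Infinite (Place K F') := infinite_place
  obtain ⟨oo, hoo⟩ := Infinite.exists_notMem_finset (v.fiber F')
  have hwoo : w ≠ oo := fun h => hoo (h ▸ hw)
  obtain ⟨π, -, h1, h2⟩ := exists_mem_affRing_ord_eq_one (oo := oo) hwoo ((v.fiber F').erase w)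
    (Finset.notMem_erase _ _)
  exact ⟨π, h1, fun w' hw' hne => h2 w' (Finset.mem_erase.2 ⟨hne, hw'⟩) fun h => hoo (h ▸ hw')⟩

/-- `ν (σ f) = 1` when `ord_{w_σ} f = 0`. -/
theorem Val_valuation_emb_eq_one
    (h𝒱 : 𝒱.comap (algebraMap F (AlgebraicClosure F)) = v.toValuationSubring)
    (σ : F' →ₐ[F] AlgebraicClosure F) {f : F'} (hf : f ≠ 0) (h : (placeOfEmb h𝒱 σ).ord f = 0) :
    𝒱.valuation (σ f) = 1 := by
  have h1 : σ f ∈ 𝒱 := (emb_mem_iff h𝒱 σ f).2 h.ge
  have h2 : σ f ∉ 𝒱.nonunits := fun h3 => by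
    rcases (emb_mem_nonunits_iff h𝒱 σ f).1 h3 with h4 | h4
    · exact hf h4
    · omega
  rw [ValuationSubring.mem_nonunits_iff, not_lt] at h2
  exact le_antisymm ((𝒱.valuation_le_one_iff _).2 h1) h2

open Classical in
/-- (V6) the number of embeddings inducing `w` is `e_w`. -/
theorem card_emb_eq_ramificationIndex
    (h𝒱 : 𝒱.comap (algebraMap F (AlgebraicClosure F)) = v.toValuationSubring)
    {w : Place K F'} (hw : w ∈ v.fiber F') :
    (Finset.univ.filter fun σ : F' →ₐ[F] AlgebraicClosure F => placeOfEmb h𝒱 σ = w).card =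
      w.ramificationIndex F := by
  have hwv : w.restrict F = v := Place.mem_fiber.1 hw
  obtain ⟨π, hπ1, hπ2⟩ := exists_unif_fiber v hw
  have hπ0 : π ≠ 0 := by
    rintro rfl
    simp at hπ1
  set t : F := Algebra.norm F π with ht
  have ht0 : t ≠ 0 := Algebra.norm_ne_zero_iff.2 hπ0
  have htv : v.ord t = 1 := by
    rw [ht, Fermat.Agent.GR.S.ord_norm_eq_sum v π hπ0, Finset.sum_eq_single_of_mem w hw
      (fun w' hw' hne => hπ2 w' hw' hne), hπ1]
  set e := w.ramificationIndex F with he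
  set ν := 𝒱.valuation with hν
  set T : AlgebraicClosure F := algebraMap F (AlgebraicClosure F) t with hT
  have hT0 : T ≠ 0 := (map_ne_zero _).2 ht0
  -- `t` is a nonunit
  have hTlt : ν T < 1 := by
    have h1 := algebraMap_sub_val_mem_nonunits h𝒱 (f := t) (by omega)
    rw [(val_eq_zero_iff v (by omega)).2 (Or.inr (by omega)), map_zero, sub_zero] at h1
    exact (ValuationSubring.mem_nonunits_iff _).1 h1
  have hTpos : 0 < ν T := zero_lt_iff.2 ((Valuation.ne_zero_iff _).2 hT0)
  -- the two cases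
  have hcase : ∀ σ : F' →ₐ[F] AlgebraicClosure F,
      ν (σ π) ^ e = if placeOfEmb h𝒱 σ = w then ν T else 1 := by
    intro σ
    split_ifs with hσ
    · have h0 : π ^ e / algebraMap F F' t ≠ 0 :=
        div_ne_zero (pow_ne_zero _ hπ0) ((map_ne_zero _).2 ht0)
      have h1 : (placeOfEmb h𝒱 σ).ord (π ^ e / algebraMap F F' t) = 0 := by
        rw [hσ, div_eq_mul_inv, w.ord_mul (pow_ne_zero _ hπ0)
          (inv_ne_zero ((map_ne_zero _).2 ht0)), w.ord_inv, w.ord_restrict, hwv, htv, ← zpow_natCast,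
          w.ord_zpow, hπ1]
        simp [he]
      have h2 := Val_valuation_emb_eq_one h𝒱 σ h0 h1
      rw [map_div₀, map_pow, AlgHom.commutes, map_div₀, map_pow, ← hT,
        div_eq_one_iff_eq ((Valuation.ne_zero_iff _).2 hT0)] at h2
      exact h2
    · rw [Val_valuation_emb_eq_one h𝒱 σ hπ0
        (hπ2 _ (placeOfEmb_mem_fiber h𝒱 σ) hσ), one_pow]
  have hprod : T = ∏ σ : F' →ₐ[F] AlgebraicClosure F, σ π := by
    have : CharZero F := charZero_of_injective_algebraMap (algebraMap K F).injective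
    exact Algebra.norm_eq_prod_embeddings F (AlgebraicClosure F) π
  have hkey : ν T ^ e = ν T ^ (Finset.univ.filter
      fun σ : F' →ₐ[F] AlgebraicClosure F => placeOfEmb h𝒱 σ = w).card := by
    conv_lhs => rw [hprod, map_prod, ← Finset.prod_pow]
    rw [Finset.prod_congr rfl fun σ _ => hcase σ, Finset.prod_ite, Finset.prod_const,
      Finset.prod_const_one, mul_one]
  exact ((pow_right_strictAnti₀ hTpos hTlt).injective hkey).symm

/-- **(a) the value of a norm.** -/
theorem val_norm_eq_prod (v : Place K F) (f : F') (hf : ∀ w ∈ v.fiber F', 0 ≤ w.ord f) :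
    val v (Algebra.norm F f) = ∏ w ∈ v.fiber F', val w f ^ (w.ramificationIndex F) := by
  classical
  obtain ⟨𝒱, h𝒱⟩ := exists_valuationSubring_above v
  rw [val_norm_eq_prod_emb h𝒱 f hf, ← Finset.prod_fiberwise_of_maps_to
    (g := fun σ : F' →ₐ[F] AlgebraicClosure F => placeOfEmb h𝒱 σ) (t := v.fiber F')
    fun σ _ => placeOfEmb_mem_fiber h𝒱 σ]
  refine Finset.prod_congr rfl fun w hw => ?_
  rw [← card_emb_eq_ramificationIndex h𝒱 hw, Finset.prod_congr rfl
    (g := fun _ => val w f) fun σ hσ => by rw [(Finset.mem_filter.1 hσ).2], Finset.prod_const]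

end Fermat.Agent.S19.W
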