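/-
S19 / W : **Weil reciprocity** `f(div g) = g(div f)`.
-/
import Fermat.Agent.S19.W.Line
import Fermat.Agent.S19.W.Val

set_option autoImplicit false
set_option linter.unusedSectionVars false

noncomputable section

namespace Fermat.Agent.S19.W

open AlgebraicCurve Fermat.Agent.S17.FF

section rel

variable {K F F' : Type*} [Field K] [IsAlgClosed K] [CharZero K] [Field F] [Algebra K F]
  [Field F'] [Algebra K F'] [IsFF K F] [IsFF K F'] [Algebra F F'] [IsScalarTower K F F']
  [Module.Finite F F'] [HasPrincipalDivisors K F']

/-- the value of a function of `F` at a place of `F'` (`val_eq_iff`, `Place.ord_restrict`). -/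
theorem val_algebraMap_eq (w : Place K F') (x : F) :
    val w (algebraMap F F' x) = val (w.restrict F) x := by
  by_cases hx : x ∈ (w.restrict F).toValuationSubring
  · have hx0 : 0 ≤ (w.restrict F).ord x := Fermat.Agent.S24.Zeros.ord_nonneg_of_mem _ hx
    have hx1 : 0 ≤ w.ord (algebraMap F F' x) :=
      Fermat.Agent.S24.Zeros.ord_nonneg_of_mem _ (Place.mem_restrict_iff (w := w).1 hx)
    have h := (val_eq_iff (w.restrict F) hx0 (val (w.restrict F) x)).1 rfl
    rw [val_eq_iff w hx1, IsScalarTower.algebraMap_apply K F F', ← map_sub]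
    rcases h with h | h
    · left
      exact congrArg _ h
    · right
      rw [w.ord_restrict]
      have he : (0 : ℤ) < (w.ramificationIndex F : ℤ) := by
        exact_mod_cast w.ramificationIndex_pos (F := F)
      exact mul_pos he h
  · have hx' : algebraMap F F' x ∉ w.toValuationSubring := fun h =>
      hx (Place.mem_restrict_iff (w := w).2 h)
    unfold val
    rw [dif_neg hx, dif_neg hx']

open Classical in
/-- a product over all places of `F'` in a set of fibres (`Finset.prod_biUnion`, the fibres are disjoint). -/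
theorem prod_fiber {M : Type*} [CommMonoid M] (s : Finset (Place K F)) (φ : Place K F' → M) :
    ∏ v ∈ s, ∏ w ∈ v.fiber F', φ w = ∏ w ∈ s.biUnion (fun v => v.fiber F'), φ w := by
  refine (Finset.prod_biUnion ?_).symm
  intro v _ v' _ hvv'
  rw [Function.onFun, Finset.disjoint_left]
  intro w hw hw'
  exact hvv' ((Place.mem_fiber.1 hw).symm.trans (Place.mem_fiber.1 hw'))

theorem Recip_prod_zpow {k : Type*} [Field k] {ι : Type*} (s : Finset ι) {a : k} (ha : a ≠ 0)
    (n : ι → ℤ) : ∏ i ∈ s, a ^ n i = a ^ ∑ i ∈ s, n i := by
  classical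
  induction s using Finset.induction_on with
  | empty => rw [Finset.prod_empty, Finset.sum_empty, zpow_zero]
  | insert i s hi ih => rw [Finset.prod_insert hi, Finset.sum_insert hi, zpow_add₀ ha, ih]

/-- (R1) projection formula: `x(div f) = x(div N f)`, `x ∈ F`, `f ∈ F'`.
[`∏_w x(w)^{ord_w f} = ∏_v x(v)^{∑_{w|v} ord_w f}`, `GR.S.ord_norm_eq_sum`; the hypothesis makes all
`x(v) ≠ 0` where it matters (`zpow_add₀` / `Finset.prod_zpow`...).] -/
theorem evalD_algebraMap_divf {x : F} (hx : x ≠ 0) {f : F'} (hf : f ≠ 0)
    (h : ∀ w : Place K F', w.ord f ≠ 0 → (w.restrict F).ord x = 0) :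
    evalD (algebraMap F F' x) (divf (K := K) f) = evalD x (divf (K := K) (Algebra.norm F f)) := by
  classical
  set s : Finset (Place K F) := (divf (K := K) (Algebra.norm F f)).support ∪
    (divf (K := K) f).support.image (fun w => w.restrict F) with hs
  have hsub : (divf (K := K) f).support ⊆ s.biUnion (fun v => v.fiber F') := by
    intro w hw
    rw [Finset.mem_biUnion]
    exact ⟨w.restrict F, Finset.mem_union_right _ (Finset.mem_image_of_mem _ hw),
      Place.restrict_mem_fiber w⟩
  rw [evalD_eq_prod _ _ _ hsub, evalD_eq_prod _ _ s Finset.subset_union_left, ← prod_fiber]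
  refine Finset.prod_congr rfl (fun v _ => ?_)
  rw [divf_apply, GR.S.ord_norm_eq_sum v f hf]
  have h1 : ∀ w ∈ v.fiber F', val w (algebraMap F F' x) ^ (divf (K := K) f) w =
      val v x ^ w.ord f := by
    intro w hw
    rw [val_algebraMap_eq, Place.mem_fiber.1 hw, divf_apply]
  rw [Finset.prod_congr rfl h1]
  by_cases hall : ∀ w ∈ v.fiber F', w.ord f = 0
  · rw [Finset.sum_eq_zero hall, zpow_zero]
    exact Finset.prod_eq_one (fun w hw => by rw [hall w hw, zpow_zero])
  · simp only [not_forall] at hall
    obtain ⟨w, hw, hwf⟩ := hall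
    have hv : v.ord x = 0 := by
      have := h w hwf
      rwa [Place.mem_fiber.1 hw] at this
    exact Recip_prod_zpow _ (val_ne_zero_of_ord_eq_zero hx hv) _

/-- (R2) projection formula: `f(div x) = (N f)(div x)`.
[`∏_w f(w)^{e_w ord_v x} = ∏_v (∏_{w|v} f(w)^{e_w})^{ord_v x}`, `val_norm_eq_prod`, `Place.ord_restrict`.] -/
theorem evalD_divf_algebraMap {x : F} (hx : x ≠ 0) {f : F'} (hf : f ≠ 0)
    (h : ∀ w : Place K F', (w.restrict F).ord x ≠ 0 → w.ord f = 0) :
    evalD f (divf (K := K) (algebraMap F F' x)) = evalD (Algebra.norm F f) (divf (K := K) x) := by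
  classical
  set s : Finset (Place K F) := (divf (K := K) x).support with hs
  have hsub : (divf (K := K) (algebraMap F F' x)).support ⊆ s.biUnion (fun v => v.fiber F') := by
    intro w hw
    rw [Finsupp.mem_support_iff, divf_apply, w.ord_restrict] at hw
    rw [Finset.mem_biUnion]
    refine ⟨w.restrict F, ?_, Place.restrict_mem_fiber w⟩
    rw [hs, Finsupp.mem_support_iff, divf_apply]
    exact right_ne_zero_of_mul hw
  rw [evalD_eq_prod _ _ _ hsub, evalD_eq_prod _ _ s (Finset.Subset.refl _), ← prod_fiber]
  refine Finset.prod_congr rfl (fun v hv => ?_)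
  rw [hs, Finsupp.mem_support_iff, divf_apply] at hv
  have hfib : ∀ w ∈ v.fiber F', 0 ≤ w.ord f := by
    intro w hw
    have := h w (by rw [Place.mem_fiber.1 hw]; exact hv)
    rw [this]
  rw [divf_apply, val_norm_eq_prod v f hfib, ← Finset.prod_zpow]
  refine Finset.prod_congr rfl (fun w hw => ?_)
  rw [divf_apply, w.ord_restrict, Place.mem_fiber.1 hw, zpow_mul, zpow_natCast]

/-- the norm has no zero or pole where `f` has none in the fibre (`GR.S.ord_norm_eq_sum`). -/
theorem ord_norm_eq_zero {v : Place K F} {f : F'} (hf : f ≠ 0)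
    (h : ∀ w ∈ v.fiber F', w.ord f = 0) : v.ord (Algebra.norm F f) = 0 := by
  rw [GR.S.ord_norm_eq_sum v f hf]
  exact Finset.sum_eq_zero h

end rel

variable {K F : Type*} [Field K] [Field F] [Algebra K F] [IsAlgClosed K] [CharZero K] [IsFF K F]

/-- `K(g)` is a function field. -/
theorem isFF_adjoin {g : F} (hg : Transcendental K g) : IsFF K (IntermediateField.adjoin K {g}) := by
  have htop : IntermediateField.adjoin K {(IntermediateField.AdjoinSimple.gen K g)} = ⊤ := by
    apply IntermediateField.lift_injective
    rw [IntermediateField.lift_adjoin_simple, IntermediateField.lift_top,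
      IntermediateField.AdjoinSimple.coe_gen]
  refine ⟨IntermediateField.AdjoinSimple.gen K g, ?_, ?_⟩
  · intro halg
    apply hg
    have := halg.algebraMap (A := F)
    rwa [IntermediateField.AdjoinSimple.algebraMap_gen] at this
  · have h1 : Module.finrank (IntermediateField.adjoin K
        {(IntermediateField.AdjoinSimple.gen K g)}) (IntermediateField.adjoin K {g}) = 1 := by
      rw [htop]
      exact IntermediateField.finrank_top
    exact Module.finite_of_finrank_pos (by rw [h1]; exact one_pos)

/-- the generator generates. -/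
theorem adjoin_gen_eq_top (g : F) :
    IntermediateField.adjoin K {(IntermediateField.AdjoinSimple.gen K g)} = ⊤ := by
  apply IntermediateField.lift_injective
  rw [IntermediateField.lift_adjoin_simple, IntermediateField.lift_top,
    IntermediateField.AdjoinSimple.coe_gen]

/-- reciprocity when `g` is not constant: `weil_line` for `(N f, g)` on `K(g)` + (R1), (R2)
[instances: `isFF_adjoin`, `finiteDimensional_adjoin`, `GR.S.hasPrincipalDivisors_of_isFF`]. -/
theorem weil_of_transcendental {f g : F} (hf : f ≠ 0) (hg : Transcendental K g)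
    (h : ∀ P : Place K F, P.ord f = 0 ∨ P.ord g = 0) :
    evalD f (divf (K := K) g) = evalD g (divf (K := K) f) := by
  have : IsFF K (IntermediateField.adjoin K {g}) := isFF_adjoin hg
  have : Module.Finite (IntermediateField.adjoin K {g}) F := finiteDimensional_adjoin hg
  have : HasPrincipalDivisors K F := Fermat.Agent.GR.S.hasPrincipalDivisors_of_isFF
  set x : IntermediateField.adjoin K {g} := IntermediateField.AdjoinSimple.gen K g with hxdef
  have hxg : algebraMap (IntermediateField.adjoin K {g}) F x = g :=
    IntermediateField.AdjoinSimple.algebraMap_gen K g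
  have hg0 : g ≠ 0 := fun h0 => hg (h0 ▸ isAlgebraic_zero)
  have hx0 : x ≠ 0 := by
    intro h0
    apply hg0
    rw [← hxg, h0, map_zero]
  have hord : ∀ w : Place K F, w.ord g =
      (w.ramificationIndex (IntermediateField.adjoin K {g}) : ℤ)
        * (w.restrict (IntermediateField.adjoin K {g})).ord x := by
    intro w
    rw [← w.ord_restrict x, hxg]
  have hepos : ∀ w : Place K F,
      (0 : ℤ) < (w.ramificationIndex (IntermediateField.adjoin K {g}) : ℤ) := by
    intro w
    exact_mod_cast w.ramificationIndex_pos (F := IntermediateField.adjoin K {g})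
  have h2 : ∀ w : Place K F, (w.restrict (IntermediateField.adjoin K {g})).ord x ≠ 0 →
      w.ord f = 0 := by
    intro w hw
    refine (h w).resolve_right ?_
    rw [hord w]
    exact mul_ne_zero (hepos w).ne' hw
  have h1 : ∀ w : Place K F, w.ord f ≠ 0 →
      (w.restrict (IntermediateField.adjoin K {g})).ord x = 0 := by
    intro w hw
    by_contra hne
    exact hw (h2 w hne)
  have hN0 : Algebra.norm (IntermediateField.adjoin K {g}) f ≠ 0 := Algebra.norm_ne_zero_iff.mpr hf
  have hline := weil_line (K := K) (adjoin_gen_eq_top (K := K) g) hN0 (by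
    intro v hv
    refine ord_norm_eq_zero hf fun w hw => h2 w ?_
    rw [Place.mem_fiber.mp hw]
    exact hv)
  calc evalD f (divf (K := K) g)
      = evalD f (divf (K := K) (algebraMap (IntermediateField.adjoin K {g}) F x)) := by rw [hxg]
    _ = evalD (Algebra.norm (IntermediateField.adjoin K {g}) f) (divf (K := K) x) :=
        evalD_divf_algebraMap hx0 hf h2
    _ = evalD x (divf (K := K) (Algebra.norm (IntermediateField.adjoin K {g}) f)) := hline
    _ = evalD (algebraMap (IntermediateField.adjoin K {g}) F x) (divf (K := K) f) :=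
        (evalD_algebraMap_divf hx0 hf h1).symm
    _ = evalD g (divf (K := K) f) := by rw [hxg]

/-- **Weil reciprocity.**  [`g` algebraic over `K` ⟹ constant (`S24.Zeros.exists_algebraMap_eq_of_isAlgebraic`):
`divf g = 0`, `evalD_algebraMap_of_degree_eq_zero`, `degree_divf`.] -/
theorem weil_reciprocity {f g : F} (hf : f ≠ 0) (hg : g ≠ 0)
    (h : ∀ P : Place K F, P.ord f = 0 ∨ P.ord g = 0) :
    evalD f (divf (K := K) g) = evalD g (divf (K := K) f) := by
  by_cases hgt : Transcendental K g
  · exact weil_of_transcendental hf hgt h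
  · have halg : IsAlgebraic K g := by
      by_contra hcon
      exact hgt hcon
    obtain ⟨c, rfl⟩ := Fermat.Agent.S24.Zeros.exists_algebraMap_eq_of_isAlgebraic halg
    have hc : c ≠ 0 := by
      rintro rfl
      exact hg (map_zero _)
    rw [divf_algebraMap, evalD_zero, evalD_algebraMap_of_degree_eq_zero hc (degree_divf f)]

end Fermat.Agent.S19.W
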