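/-
S19 / W : the Weil pairing of Kummer functions `e((u,D),(u',D')) = u(D') / u'(D)`, `div u = n D`, `div u' = n D'`,
`supp D ∩ supp D' = ∅`.
-/
import Fermat.Agent.S19.W.Recip

set_option autoImplicit false
set_option linter.unusedSectionVars false

noncomputable section

namespace Fermat.Agent.S19.W

open AlgebraicCurve Fermat.Agent.S17.FF

variable {K F : Type*} [Field K] [Field F] [Algebra K F] [IsAlgClosed K] [CharZero K] [IsFF K F]

/-- `(u, D)` is a Kummer pair of exponent `n`: `u ≠ 0`, `div u = n D`. -/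
def IsKum (n : ℕ) (u : F) (D : Divisor K F) : Prop := u ≠ 0 ∧ divf (K := K) u = n • D

/-- disjoint supports. -/
def DisjD (D E : Divisor K F) : Prop := ∀ P : Place K F, D P = 0 ∨ E P = 0

/-- the pairing. -/
def ePair (u : F) (D : Divisor K F) (u' : F) (D' : Divisor K F) : K := evalD u D' / evalD u' D

variable {n : ℕ} {u u₁ u₂ u' h : F} {D D₁ D₂ D' : Divisor K F}

theorem DisjD.symm (h : DisjD D D') : DisjD D' D := fun P => (h P).symm

theorem DisjD.add_left (h₁ : DisjD D₁ D') (h₂ : DisjD D₂ D') : DisjD (D₁ + D₂) D' := by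
  intro P
  rcases h₁ P with h | h
  · rcases h₂ P with h' | h'
    · left
      rw [Finsupp.add_apply, h, h', add_zero]
    · exact Or.inr h'
  · exact Or.inr h

theorem DisjD.neg_left (h : DisjD D D') : DisjD (-D) D' := by
  intro P
  rcases h P with h | h
  · left
    rw [Finsupp.neg_apply, h, neg_zero]
  · exact Or.inr h

theorem DisjD.sub_left (h₁ : DisjD D₁ D') (h₂ : DisjD D₂ D') : DisjD (D₁ - D₂) D' := by
  rw [sub_eq_add_neg]
  exact h₁.add_left h₂.neg_left

theorem IsKum.ne_zero (hu : IsKum n u D) : u ≠ 0 := hu.1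

theorem IsKum.ord_eq (hu : IsKum n u D) (P : Place K F) : P.ord u = n * D P := by
  rw [← divf_apply (K := K) u P, hu.2, Finsupp.smul_apply, nsmul_eq_mul]

theorem IsKum.degree_eq_zero (hn : n ≠ 0) (hu : IsKum n u D) : Divisor.degree D = 0 := by
  have h := degree_divf (K := K) u
  rw [hu.2, map_nsmul, nsmul_eq_mul] at h
  rcases mul_eq_zero.1 h with h | h
  · exact absurd (by exact_mod_cast h) hn
  · exact h

theorem IsKum.disj (hu : IsKum n u D) (h : DisjD D D') : Disj u D' := by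
  refine ⟨hu.1, fun P hP => ?_⟩
  rcases h P with h | h
  · rw [hu.ord_eq, h, mul_zero]
  · exact absurd h hP

theorem IsKum.mul (h₁ : IsKum n u₁ D₁) (h₂ : IsKum n u₂ D₂) : IsKum n (u₁ * u₂) (D₁ + D₂) := by
  refine ⟨mul_ne_zero h₁.1 h₂.1, ?_⟩
  rw [divf_mul h₁.1 h₂.1, h₁.2, h₂.2, nsmul_add]

theorem IsKum.inv (hu : IsKum n u D) : IsKum n u⁻¹ (-D) := by
  refine ⟨inv_ne_zero hu.1, ?_⟩
  rw [divf_inv, hu.2, smul_neg]

theorem IsKum.div (h₁ : IsKum n u₁ D₁) (h₂ : IsKum n u₂ D₂) : IsKum n (u₁ / u₂) (D₁ - D₂) := by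
  rw [div_eq_mul_inv, sub_eq_add_neg]
  exact h₁.mul h₂.inv

theorem isKum_pow (n : ℕ) (hh : h ≠ 0) : IsKum n (h ^ n) (divf (K := K) h) := by
  refine ⟨pow_ne_zero n hh, ?_⟩
  induction n with
  | zero =>
    rw [pow_zero, zero_smul, ← map_one (algebraMap K F), divf_algebraMap]
  | succ m ih =>
    rw [pow_succ, divf_mul (pow_ne_zero m hh) hh, ih, succ_nsmul]

theorem isKum_algebraMap (n : ℕ) {c : K} (hc : c ≠ 0) : IsKum n (algebraMap K F c) (0 : Divisor K F) := by
  refine ⟨fun h => hc ?_, ?_⟩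
  · exact (map_eq_zero (algebraMap K F)).1 h
  · rw [divf_algebraMap, smul_zero]

theorem IsKum.smul (g : SemilinearAut K F) (hu : IsKum n u D) : IsKum n (g • u) (g • D) := by
  refine ⟨fun h => hu.1 ((smul_eq_zero_iff' g u).1 h), ?_⟩
  rw [divf_smul, hu.2, smul_comm]

/-- if `n ≠ 0` the divisor is determined by the function. -/
theorem IsKum.divisor_unique (hn : n ≠ 0) (h₁ : IsKum n u D) (h₂ : IsKum n u D') : D = D' := by
  refine Finsupp.ext fun P => ?_
  have h := h₁.ord_eq P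
  rw [h₂.ord_eq P] at h
  have hn' : (n : ℤ) ≠ 0 := by exact_mod_cast hn
  exact (mul_left_cancel₀ hn' h).symm

theorem Pair_ord_or (hu : IsKum n u D) (hu' : IsKum n u' D') (h : DisjD D D') (P : Place K F) :
    P.ord u = 0 ∨ P.ord u' = 0 := by
  rcases h P with h0 | h0
  · exact Or.inl (by rw [hu.ord_eq, h0, mul_zero])
  · exact Or.inr (by rw [hu'.ord_eq, h0, mul_zero])

theorem Pair_disjD_zero (D' : Divisor K F) : DisjD (0 : Divisor K F) D' :=
  fun _ => Or.inl (Finsupp.zero_apply ..)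

theorem Pair_disj_of_divf (hh : h ≠ 0) (hd : DisjD (divf (K := K) h) D') : Disj h D' :=
  ⟨hh, fun P hP => (hd P).resolve_right hP⟩

theorem Pair_disj_single (hu : IsKum n u D) {P : Place K F} (hP : D P = 0) (m : ℤ) :
    Disj u (Finsupp.single P m : Divisor K F) := by
  classical
  refine ⟨hu.1, fun Q hQ => ?_⟩
  have hQP : Q = P := by
    by_contra hne
    exact hQ (Finsupp.single_eq_of_ne hne)
  rw [hQP, hu.ord_eq, hP, mul_zero]

theorem ePair_ne_zero (hu : IsKum n u D) (hu' : IsKum n u' D') (h : DisjD D D') :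
    ePair u D u' D' ≠ 0 := by
  exact div_ne_zero (evalD_ne_zero (hu.disj h)) (evalD_ne_zero (hu'.disj h.symm))

/-- (P5) -/
theorem ePair_swap (u : F) (D : Divisor K F) (u' : F) (D' : Divisor K F) :
    ePair u' D' u D = (ePair u D u' D')⁻¹ := by
  unfold ePair
  rw [inv_div]

/-- (P1) `e^n = u(n D') / u'(n D) = u(div u') / u'(div u) = 1`. -/
theorem ePair_pow (hu : IsKum n u D) (hu' : IsKum n u' D') (h : DisjD D D') :
    ePair u D u' D' ^ n = 1 := by
  have hne : evalD u' (divf (K := K) u) ≠ 0 := by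
    rw [hu.2, evalD_nsmul]
    exact pow_ne_zero n (evalD_ne_zero (hu'.disj h.symm))
  unfold ePair
  rw [div_pow, ← evalD_nsmul, ← evalD_nsmul, ← hu'.2, ← hu.2,
    weil_reciprocity hu.1 hu'.1 (Pair_ord_or hu hu' h), div_self hne]

/-- (P2) -/
theorem ePair_mul_left (h₁ : IsKum n u₁ D₁) (h₂ : IsKum n u₂ D₂) (hu' : IsKum n u' D')
    (hd₁ : DisjD D₁ D') (hd₂ : DisjD D₂ D') :
    ePair (u₁ * u₂) (D₁ + D₂) u' D' = ePair u₁ D₁ u' D' * ePair u₂ D₂ u' D' := by
  unfold ePair
  rw [evalD_mul (h₁.disj hd₁) (h₂.disj hd₂), evalD_add (hu'.disj hd₁.symm) (hu'.disj hd₂.symm),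
    mul_div_mul_comm]

theorem ePair_mul_right (h₁ : IsKum n u₁ D₁) (h₂ : IsKum n u₂ D₂) (hu' : IsKum n u' D')
    (hd₁ : DisjD D' D₁) (hd₂ : DisjD D' D₂) :
    ePair u' D' (u₁ * u₂) (D₁ + D₂) = ePair u' D' u₁ D₁ * ePair u' D' u₂ D₂ := by
  rw [ePair_swap (u₁ * u₂) (D₁ + D₂) u' D', ePair_mul_left h₁ h₂ hu' hd₁.symm hd₂.symm, mul_inv,
    ← ePair_swap, ← ePair_swap]

theorem ePair_inv_left (hu : IsKum n u D) (hu' : IsKum n u' D') (h : DisjD D D') :
    ePair u⁻¹ (-D) u' D' = (ePair u D u' D')⁻¹ := by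
  unfold ePair
  rw [evalD_inv (hu.disj h), evalD_neg, inv_div_inv, inv_div]

/-- (P4) `e((h^n, div h), (u', D')) = h(n D') / u'(div h) = h(div u') / u'(div h) = 1`. -/
theorem ePair_pow_left (hh : h ≠ 0) (hu' : IsKum n u' D') (hd : DisjD (divf (K := K) h) D') :
    ePair (h ^ n) (divf (K := K) h) u' D' = 1 := by
  have hne : evalD u' (divf (K := K) h) ≠ 0 := evalD_ne_zero (hu'.disj hd.symm)
  have hord : ∀ P : Place K F, P.ord h = 0 ∨ P.ord u' = 0 := by
    intro P
    rcases hd P with h0 | h0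
    · exact Or.inl h0
    · exact Or.inr (by rw [hu'.ord_eq, h0, mul_zero])
  unfold ePair
  rw [evalD_pow (Pair_disj_of_divf hh hd), ← evalD_nsmul, ← hu'.2,
    weil_reciprocity hh hu'.1 hord, div_self hne]

/-- constants (`D'` has degree `0`). -/
theorem ePair_algebraMap_left (hn : n ≠ 0) {c : K} (hc : c ≠ 0) (hu' : IsKum n u' D') :
    ePair (algebraMap K F c) (0 : Divisor K F) u' D' = 1 := by
  unfold ePair
  rw [evalD_algebraMap_of_degree_eq_zero hc (hu'.degree_eq_zero hn), evalD_zero, div_one]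

/-- (P3) independence of the representative: `(u, D) ↦ (c u h^n, D + div h)`. -/
theorem ePair_change_left (hn : n ≠ 0) (hu : IsKum n u D) (hu' : IsKum n u' D') (hd : DisjD D D')
    {c : K} (hc : c ≠ 0) (hh : h ≠ 0) (hd' : DisjD (divf (K := K) h) D') :
    ePair (algebraMap K F c * u * h ^ n) (D + divf (K := K) h) u' D' = ePair u D u' D' := by
  have hk : IsKum n (algebraMap K F c * u) D := by
    have := (isKum_algebraMap (K := K) (F := F) n hc).mul hu
    rwa [zero_add] at this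
  have e1 : ePair (algebraMap K F c * u) D u' D' = ePair u D u' D' := by
    have := ePair_mul_left (isKum_algebraMap (K := K) (F := F) n hc) hu hu' (Pair_disjD_zero D') hd
    rwa [zero_add, ePair_algebraMap_left hn hc hu', one_mul] at this
  rw [ePair_mul_left hk (isKum_pow n hh) hu' hd hd', e1, ePair_pow_left hh hu' hd', mul_one]

theorem ePair_change_right (hn : n ≠ 0) (hu : IsKum n u D) (hu' : IsKum n u' D') (hd : DisjD D D')
    {c : K} (hc : c ≠ 0) (hh : h ≠ 0) (hd' : DisjD D (divf (K := K) h)) :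
    ePair u D (algebraMap K F c * u' * h ^ n) (D' + divf (K := K) h) = ePair u D u' D' := by
  rw [ePair_swap (algebraMap K F c * u' * h ^ n) (D' + divf (K := K) h) u D,
    ePair_change_left hn hu' hu hd.symm hc hh hd'.symm, ← ePair_swap]

/-- (P6) semilinear automorphisms. -/
theorem ePair_smul (g : SemilinearAut K F) (u : F) (D : Divisor K F) (u' : F) (D' : Divisor K F) :
    ePair (g • u) (g • D) (g • u') (g • D') = SemilinearAut.baseAut g (ePair u D u' D') := by
  unfold ePair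
  rw [evalD_smul, evalD_smul, map_div₀]

theorem DisjD.smul (g : SemilinearAut K F) (h : DisjD D D') : DisjD (g • D) (g • D') := by
  intro P
  rw [SemilinearAut.divisor_smul_apply, SemilinearAut.divisor_smul_apply]
  exact h _

/-- the formula used in (ND): if `n C = P - P₀ + div w` (as divisors) and `(u, D)` is a Kummer pair, all supports
disjoint as needed, then `β := u(C) / w(D)` satisfies `β ^ n = u(P) / u(P₀)`.
[`β^n = u(n C) / w(n D) = u(P) u(P₀)⁻¹ u(div w) / w(div u)`.] -/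
theorem pow_evalD_div_eq (hu : IsKum n u D) {w : F} (hw : w ≠ 0) {C : Divisor K F} {P P₀ : Place K F}
    (hC : n • C = Finsupp.single P 1 - Finsupp.single P₀ 1 + divf (K := K) w)
    (hP : D P = 0) (hP₀ : D P₀ = 0) (hdw : DisjD (divf (K := K) w) D) (hdC : DisjD C D) :
    (evalD u C / evalD w D) ^ n = val P u / val P₀ u := by
  have hwD : Disj w D := Pair_disj_of_divf hw hdw
  have hne : evalD w (divf (K := K) u) ≠ 0 := by
    rw [hu.2, evalD_nsmul]
    exact pow_ne_zero n (evalD_ne_zero hwD)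
  have hord : ∀ Q : Place K F, Q.ord u = 0 ∨ Q.ord w = 0 := by
    intro Q
    rcases hdw Q with h0 | h0
    · exact Or.inr h0
    · exact Or.inl (by rw [hu.ord_eq, h0, mul_zero])
  rw [div_pow, ← evalD_nsmul, ← evalD_nsmul, hC, ← hu.2,
    evalD_add ((Pair_disj_single hu hP 1).sub (Pair_disj_single hu hP₀ 1)) (hu.disj hdw.symm),
    evalD_sub (Pair_disj_single hu hP 1) (Pair_disj_single hu hP₀ 1), evalD_single, evalD_single,
    zpow_one, zpow_one, weil_reciprocity hu.1 hw hord, mul_div_cancel_right₀ _ hne]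

end Fermat.Agent.S19.W
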