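/-
S19 / W : the Weil pairing on classes, `weil n : Pic0 K F → Pic0 K F → K`.
-/
import Fermat.Agent.S19.W.Pair
import Fermat.Agent.S17.FF.Moving

set_option autoImplicit false
set_option linter.unusedSectionVars false

noncomputable section

namespace Fermat.Agent.S19.W

open AlgebraicCurve Fermat.Agent.S17.FF

variable {K F : Type*} [Field K] [Field F] [Algebra K F] [IsAlgClosed K] [CharZero K] [IsFF K F]

/-- `(u, D)` is a Kummer pair of exponent `n` representing the class `x`. -/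
def IsRep (n : ℕ) (x : Pic0 K F) (u : F) (D : Divisor K F) : Prop :=
  IsKum n u D ∧ ∃ h : D ∈ Divisor.degZero (K := K) (F := F), Pic0.mk ⟨D, h⟩ = x

variable {n : ℕ} {x x₁ x₂ y y₁ y₂ : Pic0 K F} {u u₁ u₂ u' : F} {D D₁ D₂ D' : Divisor K F}

theorem IsRep.kum (h : IsRep n x u D) : IsKum n u D := h.1

theorem IsRep.cls_eq (h : IsRep n x u D) (oo : Place K F) : cls oo D = x := by
  obtain ⟨-, h0, rfl⟩ := h
  exact (mk_eq_cls oo ⟨D, h0⟩).symm

theorem isRep_of_cls (hn : n ≠ 0) (hu : IsKum n u D) (oo : Place K F) (h : cls oo D = x) :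
    IsRep n x u D := by
  have h0 : D ∈ Divisor.degZero (K := K) (F := F) := Divisor.mem_degZero.2 (hu.degree_eq_zero hn)
  exact ⟨hu, h0, by rw [mk_eq_cls oo ⟨D, h0⟩]; exact h⟩

theorem IsRep.degree_eq_zero (h : IsRep n x u D) : Divisor.degree D = 0 := by
  obtain ⟨-, h0, -⟩ := h
  exact Divisor.mem_degZero.1 h0

theorem IsRep.nsmul_eq_zero (h : IsRep n x u D) : n • x = 0 := by
  obtain ⟨oo⟩ : Nonempty (Place K F) := RiemannCor_nonempty_place
  rw [← h.cls_eq oo, ← cls_nsmul, ← h.kum.2, cls_divf]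

/-- **moving lemma for Kummer pairs.** -/
theorem exists_rep (hx : n • x = 0) (S : Finset (Place K F)) :
    ∃ (u : F) (D : Divisor K F), IsRep n x u D ∧ ∀ P ∈ S, D P = 0 := by
  classical
  obtain ⟨oo⟩ : Nonempty (Place K F) := RiemannCor_nonempty_place
  have hμ : cBound K F + 1 ≤ ((cBound K F + 1).toNat : ℤ) := Int.self_le_toNat _
  obtain ⟨P₁, hc₁, -, hd₁, hP₁⟩ := exists_reduced_cls oo x hμ S
  obtain ⟨P₂, hc₂, -, hd₂, hP₂⟩ := exists_reduced_cls oo (0 : Pic0 K F) hμ S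
  set D : Divisor K F := ∑ v ∈ P₁, Finsupp.single v (1 : ℤ) - ∑ v ∈ P₂, Finsupp.single v (1 : ℤ)
    with hD
  have hcls : cls oo D = x := by rw [hD, cls_sub, hP₁, hP₂, sub_zero]
  have hdeg : Divisor.degree D = 0 := by
    rw [hD, map_sub, degree_sum_single, degree_sum_single, hc₁, hc₂, sub_self]
  have h0 : cls oo (n • D) = 0 := by rw [cls_nsmul, hcls, hx]
  obtain ⟨u, hu0, hu⟩ := (cls_eq_zero_iff oo _).1 h0
  rw [map_nsmul, hdeg, smul_zero, Finsupp.single_zero, zero_add] at hu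
  have hm : D ∈ Divisor.degZero (K := K) (F := F) := Divisor.mem_degZero.2 hdeg
  refine ⟨u, D, ⟨⟨hu0, hu.symm⟩, hm, by rw [mk_eq_cls oo ⟨D, hm⟩]; exact hcls⟩, fun P hP => ?_⟩
  rw [hD, Finsupp.sub_apply, sum_single_apply, sum_single_apply,
    if_neg (fun h => (Finset.disjoint_left.1 hd₁ h) hP),
    if_neg (fun h => (Finset.disjoint_left.1 hd₂ h) hP), sub_zero]

/-- two representatives of the same class differ by `(c h^n, div h)`. -/
theorem IsRep.exists_eq (h₁ : IsRep n x u₁ D₁) (h₂ : IsRep n x u₂ D₂) :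
    ∃ (c : K) (h : F), c ≠ 0 ∧ h ≠ 0 ∧ D₂ = D₁ + divf (K := K) h ∧
      u₂ = algebraMap K F c * u₁ * h ^ n := by
  obtain ⟨oo⟩ : Nonempty (Place K F) := RiemannCor_nonempty_place
  have hc : cls oo D₁ = cls oo D₂ := by rw [h₁.cls_eq, h₂.cls_eq]
  obtain ⟨h, hh, hD⟩ := (cls_eq_cls_iff oo (by rw [h₁.degree_eq_zero, h₂.degree_eq_zero])).1 hc
  have hu₁ := h₁.kum.ne_zero
  have hu₂ := h₂.kum.ne_zero
  have hhn : h ^ n ≠ 0 := pow_ne_zero _ hh
  have hk : IsKum n (u₂ / (u₁ * h ^ n)) (0 : Divisor K F) := by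
    have := h₂.kum.div (h₁.kum.mul (isKum_pow n hh))
    rwa [← hD, sub_self] at this
  obtain ⟨c, hc⟩ := exists_const_of_ord_nonneg (K := K) (f := u₂ / (u₁ * h ^ n)) (fun v => by
    rw [hk.ord_eq v]; simp)
  refine ⟨c, h, ?_, hh, hD, ?_⟩
  · rintro rfl
    rw [map_zero] at hc
    exact hk.ne_zero hc
  · rw [← hc]
    field_simp

theorem DisjD.of_add_left (h₁ : DisjD D₁ D') (h₂ : DisjD (D₁ + D₂) D') : DisjD D₂ D' := by
  have := h₂.sub_left h₁
  rwa [add_sub_cancel_left] at this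

/-- independence of the left representative. -/
theorem ePair_eq_left (hn : n ≠ 0) (h₁ : IsRep n x u₁ D₁) (h₂ : IsRep n x u₂ D₂)
    (hu' : IsKum n u' D') (hd₁ : DisjD D₁ D') (hd₂ : DisjD D₂ D') :
    ePair u₁ D₁ u' D' = ePair u₂ D₂ u' D' := by
  obtain ⟨c, h, hc, hh, rfl, rfl⟩ := h₁.exists_eq h₂
  exact (ePair_change_left hn h₁.kum hu' hd₁ hc hh (hd₁.of_add_left hd₂)).symm

/-- independence of the right representative. -/
theorem ePair_eq_right (hn : n ≠ 0) (h₁ : IsRep n x u₁ D₁) (h₂ : IsRep n x u₂ D₂)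
    (hu' : IsKum n u' D') (hd₁ : DisjD D' D₁) (hd₂ : DisjD D' D₂) :
    ePair u' D' u₁ D₁ = ePair u' D' u₂ D₂ := by
  rw [ePair_swap u₁ D₁ u' D', ePair_swap u₂ D₂ u' D', ePair_eq_left hn h₁ h₂ hu' hd₁.symm hd₂.symm]

theorem disjD_of_forall_mem_support (h : ∀ P ∈ D.support, D' P = 0) : DisjD D D' := fun P => by
  by_cases hP : D P = 0
  · exact Or.inl hP
  · exact Or.inr (h P (Finsupp.mem_support_iff.2 hP))

/-- independence of both representatives. -/
theorem ePair_eq_of_isRep (hn : n ≠ 0) {v₁ v₂ : F} {E₁ E₂ : Divisor K F}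
    (h₁ : IsRep n x u₁ D₁) (h₂ : IsRep n x u₂ D₂) (k₁ : IsRep n y v₁ E₁) (k₂ : IsRep n y v₂ E₂)
    (hd₁ : DisjD D₁ E₁) (hd₂ : DisjD D₂ E₂) : ePair u₁ D₁ v₁ E₁ = ePair u₂ D₂ v₂ E₂ := by
  classical
  obtain ⟨v₃, E₃, k₃, hE₃⟩ := exists_rep k₁.nsmul_eq_zero (D₁.support ∪ D₂.support)
  have d₁ : DisjD D₁ E₃ :=
    disjD_of_forall_mem_support fun P hP => hE₃ P (Finset.mem_union_left _ hP)
  have d₂ : DisjD D₂ E₃ :=
    disjD_of_forall_mem_support fun P hP => hE₃ P (Finset.mem_union_right _ hP)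
  rw [ePair_eq_right hn k₁ k₃ h₁.kum hd₁ d₁, ePair_eq_left hn h₁ h₂ k₃.kum d₁ d₂,
    ePair_eq_right hn k₃ k₂ h₂.kum d₂ hd₂]

/-- there are representatives with disjoint supports. -/
theorem exists_rep_pair (hx : n • x = 0) (hy : n • y = 0) :
    ∃ (u : F) (D : Divisor K F) (u' : F) (D' : Divisor K F),
      IsRep n x u D ∧ IsRep n y u' D' ∧ DisjD D D' := by
  obtain ⟨u, D, h, -⟩ := exists_rep hx ∅
  obtain ⟨u', D', h', hd⟩ := exists_rep hy D.support
  exact ⟨u, D, u', D', h, h', disjD_of_forall_mem_support hd⟩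

open Classical in
/-- **the Weil pairing** (`= 1` outside of the `n`-torsion). -/
def weil (n : ℕ) (x y : Pic0 K F) : K :=
  if h : ∃ (u : F) (D : Divisor K F) (u' : F) (D' : Divisor K F),
      IsRep n x u D ∧ IsRep n y u' D' ∧ DisjD D D' then
    ePair h.choose h.choose_spec.choose h.choose_spec.choose_spec.choose
      h.choose_spec.choose_spec.choose_spec.choose
  else 1

/-- **the formula** `e_n(x, y) = u_x(D_y) / u_y(D_x)`. -/
theorem weil_eq (hn : n ≠ 0) (hx : IsRep n x u D) (hy : IsRep n y u' D') (hd : DisjD D D') :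
    weil n x y = ePair u D u' D' := by
  have h : ∃ (u : F) (D : Divisor K F) (u' : F) (D' : Divisor K F),
      IsRep n x u D ∧ IsRep n y u' D' ∧ DisjD D D' := ⟨u, D, u', D', hx, hy, hd⟩
  unfold weil
  rw [dif_pos h]
  obtain ⟨a, b, c⟩ := h.choose_spec.choose_spec.choose_spec.choose_spec
  exact ePair_eq_of_isRep hn a hx b hy c hd

theorem weil_of_not_left (hx : n • x ≠ 0) : weil n x y = 1 := by
  unfold weil
  rw [dif_neg]
  rintro ⟨u, D, u', D', h, -, -⟩
  exact hx h.nsmul_eq_zero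

theorem weil_of_not_right (hy : n • y ≠ 0) : weil n x y = 1 := by
  unfold weil
  rw [dif_neg]
  rintro ⟨u, D, u', D', -, h, -⟩
  exact hy h.nsmul_eq_zero

theorem weil_pow (n : ℕ) (x y : Pic0 K F) : weil n x y ^ n = 1 := by
  by_cases hn : n = 0
  · rw [hn, pow_zero]
  by_cases hx : n • x = 0
  · by_cases hy : n • y = 0
    · obtain ⟨u, D, u', D', h, h', hd⟩ := exists_rep_pair hx hy
      rw [weil_eq hn h h' hd, ePair_pow h.kum h'.kum hd]
    · rw [weil_of_not_right hy, one_pow]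
  · rw [weil_of_not_left hx, one_pow]

theorem weil_ne_zero (hn : n ≠ 0) (x y : Pic0 K F) : weil n x y ≠ 0 := fun h => by
  have := weil_pow n x y
  rw [h, zero_pow hn] at this
  exact zero_ne_one this

theorem weil_swap (hn : n ≠ 0) (x y : Pic0 K F) : weil n y x = (weil n x y)⁻¹ := by
  by_cases hx : n • x = 0
  · by_cases hy : n • y = 0
    · obtain ⟨u, D, u', D', h, h', hd⟩ := exists_rep_pair hx hy
      rw [weil_eq hn h h' hd, weil_eq hn h' h hd.symm, ePair_swap]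
    · rw [weil_of_not_right hy, weil_of_not_left hy, inv_one]
  · rw [weil_of_not_right hx, weil_of_not_left hx, inv_one]

theorem IsRep.add (h₁ : IsRep n x₁ u₁ D₁) (h₂ : IsRep n x₂ u₂ D₂) :
    IsRep n (x₁ + x₂) (u₁ * u₂) (D₁ + D₂) := by
  obtain ⟨k₁, m₁, rfl⟩ := h₁
  obtain ⟨k₂, m₂, rfl⟩ := h₂
  exact ⟨k₁.mul k₂, add_mem m₁ m₂, rfl⟩

theorem IsRep.neg (h : IsRep n x u D) : IsRep n (-x) u⁻¹ (-D) := by
  obtain ⟨k, m, rfl⟩ := h
  exact ⟨k.inv, neg_mem m, rfl⟩

theorem isRep_zero (n : ℕ) : IsRep n (0 : Pic0 K F) (1 : F) (0 : Divisor K F) := by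
  refine ⟨?_, zero_mem _, rfl⟩
  have := isKum_algebraMap (K := K) (F := F) n (one_ne_zero (α := K))
  rwa [map_one] at this

theorem weil_add_left (hn : n ≠ 0) (h₁ : n • x₁ = 0) (h₂ : n • x₂ = 0) (y : Pic0 K F) :
    weil n (x₁ + x₂) y = weil n x₁ y * weil n x₂ y := by
  by_cases hy : n • y = 0
  · obtain ⟨u', D', k, -⟩ := exists_rep hy ∅
    obtain ⟨u₁, D₁, k₁, d₁⟩ := exists_rep h₁ D'.support
    obtain ⟨u₂, D₂, k₂, d₂⟩ := exists_rep h₂ D'.support
    have e₁ : DisjD D₁ D' := (disjD_of_forall_mem_support d₁).symm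
    have e₂ : DisjD D₂ D' := (disjD_of_forall_mem_support d₂).symm
    rw [weil_eq hn (k₁.add k₂) k (e₁.add_left e₂), weil_eq hn k₁ k e₁, weil_eq hn k₂ k e₂,
      ePair_mul_left k₁.kum k₂.kum k.kum e₁ e₂]
  · rw [weil_of_not_right hy, weil_of_not_right hy, weil_of_not_right hy, one_mul]

theorem weil_add_right (hn : n ≠ 0) (x : Pic0 K F) (h₁ : n • y₁ = 0) (h₂ : n • y₂ = 0) :
    weil n x (y₁ + y₂) = weil n x y₁ * weil n x y₂ := by
  rw [weil_swap hn (y₁ + y₂) x, weil_swap hn y₁ x, weil_swap hn y₂ x, weil_add_left hn h₁ h₂,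
    mul_inv]

theorem weil_zero_left (hn : n ≠ 0) (y : Pic0 K F) : weil n 0 y = 1 := by
  have h := weil_add_left hn (x₁ := 0) (x₂ := 0) (smul_zero n) (smul_zero n) y
  rw [add_zero] at h
  exact (mul_eq_left₀ (weil_ne_zero hn 0 y)).1 h.symm

theorem weil_zero_right (hn : n ≠ 0) (x : Pic0 K F) : weil n x 0 = 1 := by
  rw [weil_swap hn 0 x, weil_zero_left hn, inv_one]

theorem IsRep.smul (g : SemilinearAut K F) (h : IsRep n x u D) : IsRep n (g • x) (g • u) (g • D) := by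
  obtain ⟨k, m, rfl⟩ := h
  exact ⟨k.smul g, SemilinearAut.smul_mem_degZero g m, rfl⟩

theorem nsmul_smul_eq_zero_iff (g : SemilinearAut K F) (z : Pic0 K F) :
    n • (g • z) = 0 ↔ n • z = 0 := by
  have h : g • (n • z) = n • (g • z) := map_nsmul (DistribSMul.toAddMonoidHom (Pic0 K F) g) n z
  rw [← h]
  constructor
  · intro h0
    have := congrArg (fun t => g⁻¹ • t) h0
    simp only [inv_smul_smul] at this
    rw [this]
    exact smul_zero (A := Pic0 K F) g⁻¹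
  · intro h0
    rw [h0]
    exact smul_zero (A := Pic0 K F) g

/-- **equivariance** under semilinear automorphisms. -/
theorem weil_smul (hn : n ≠ 0) (g : SemilinearAut K F) (x y : Pic0 K F) :
    weil n (g • x) (g • y) = SemilinearAut.baseAut g (weil n x y) := by
  by_cases hx : n • x = 0
  · by_cases hy : n • y = 0
    · obtain ⟨u, D, u', D', h, h', hd⟩ := exists_rep_pair hx hy
      rw [weil_eq hn h h' hd, weil_eq hn (h.smul g) (h'.smul g) (hd.smul g), ePair_smul]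
    · rw [weil_of_not_right hy, weil_of_not_right (mt (nsmul_smul_eq_zero_iff g y).1 hy), map_one]
  · rw [weil_of_not_left hx, weil_of_not_left (mt (nsmul_smul_eq_zero_iff g x).1 hx), map_one]

theorem IsKum.pow_of (hu : IsKum n u D) (m : ℕ) : IsKum (n * m) (u ^ m) D := by
  refine ⟨pow_ne_zero _ hu.ne_zero, Finsupp.ext fun P => ?_⟩
  rw [divf_apply, ← zpow_natCast, Place.ord_zpow, hu.ord_eq P, Finsupp.smul_apply]
  simp only [nsmul_eq_mul, Nat.cast_mul]
  ring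

theorem IsKum.nsmul_of {m : ℕ} (hu : IsKum (n * m) u D) : IsKum n u (m • D) := by
  refine ⟨hu.ne_zero, ?_⟩
  rw [hu.2, mul_smul]

theorem DisjD.nsmul_right (h : DisjD D D') (m : ℕ) : DisjD D (m • D') := fun P => by
  rcases h P with h | h
  · exact Or.inl h
  · exact Or.inr (by rw [Finsupp.smul_apply, h, smul_zero])

/-- change of exponent: `e_{nm}(x, y) = e_n(x, m y)` for `x` killed by `n`. -/
theorem weil_mul (hn : n ≠ 0) {m : ℕ} (hm : m ≠ 0) (hx : n • x = 0) (hy : (n * m) • y = 0) :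
    weil (n * m) x y = weil n x (m • y) := by
  obtain ⟨u, D, h, -⟩ := exists_rep hx ∅
  obtain ⟨u', D', h', hd⟩ := exists_rep hy D.support
  have hd' : DisjD D D' := disjD_of_forall_mem_support hd
  obtain ⟨oo⟩ : Nonempty (Place K F) := RiemannCor_nonempty_place
  have k₁ : IsRep (n * m) x (u ^ m) D :=
    isRep_of_cls (mul_ne_zero hn hm) (h.kum.pow_of m) oo (h.cls_eq oo)
  have k₂ : IsRep n (m • y) u' (m • D') :=
    isRep_of_cls hn h'.kum.nsmul_of oo (by rw [cls_nsmul, h'.cls_eq oo])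
  rw [weil_eq (mul_ne_zero hn hm) k₁ h' hd', weil_eq hn h k₂ (hd'.nsmul_right m)]
  unfold ePair
  rw [evalD_pow (h.kum.disj hd'), evalD_nsmul]

end Fermat.Agent.S19.W
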