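/-
S19 / W : adjunction (ADJ) `e^{F'}(x', π^* y) = e^{F}(π_* x', y)` for a finite extension `F ⊆ F'` of function fields.
-/
import Fermat.Agent.S19.W.Weil

set_option autoImplicit false
set_option linter.unusedSectionVars false

noncomputable section

namespace Fermat.Agent.S19.W

open AlgebraicCurve Fermat.Agent.S17.FF

variable {K F F' : Type*} [Field K] [IsAlgClosed K] [CharZero K] [Field F] [Algebra K F]
  [Field F'] [Algebra K F'] [IsFF K F] [IsFF K F'] [Algebra F F'] [IsScalarTower K F F']
  [Module.Finite F F'] [HasPrincipalDivisors K F']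

theorem pushforward_single_eq (w : Place K F') (n : ℤ) :
    Divisor.pushforward F (Finsupp.single w n) = Finsupp.single (w.restrict F) n := by
  rw [Divisor.pushforward_single, GR.S.NormFormula_inertiaDeg_eq_one, Nat.cast_one, mul_one]

theorem pushforward_apply_eq_zero {D' : Divisor K F'} {v : Place K F}
    (h : ∀ w ∈ v.fiber F', D' w = 0) : Divisor.pushforward F D' v = 0 := by
  classical
  rw [Divisor.pushforward_apply]
  refine Finset.sum_eq_zero fun w _ => ?_
  split_ifs with hw
  · rw [h w (Place.mem_fiber.2 hw), zero_mul]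
  · rfl

/-- (A1) `(π^* x)(D') = x(π_* D')`. -/
theorem evalD_algebraMap_eq {x : F} (hx : x ≠ 0) (D' : Divisor K F')
    (h : ∀ w : Place K F', D' w ≠ 0 → (w.restrict F).ord x = 0) :
    evalD (algebraMap F F' x) D' = evalD x (Divisor.pushforward F D') := by
  classical
  have hx' : algebraMap F F' x ≠ 0 := by simpa using hx
  induction D' using Finsupp.induction with
  | zero => rw [map_zero, evalD_zero, evalD_zero]
  | single_add w n D hw hn ih =>
    have hD : ∀ w' : Place K F', D w' ≠ 0 → (w'.restrict F).ord x = 0 := fun w' hw' => by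
      refine h w' ?_
      have : w' ≠ w := fun e => hw (by rw [← e]; exact Finsupp.mem_support_iff.2 hw')
      rwa [Finsupp.add_apply, Finsupp.single_eq_of_ne this, zero_add]
    have hw0 : (w.restrict F).ord x = 0 := by
      refine h w ?_
      rwa [Finsupp.add_apply, Finsupp.single_eq_same, Finsupp.notMem_support_iff.1 hw, add_zero]
    have d1 : Disj (algebraMap F F' x) (Finsupp.single w n) := ⟨hx', fun P hP => by
      have : P = w := by
        by_contra e
        exact hP (Finsupp.single_eq_of_ne e)
      rw [this, Place.ord_restrict, hw0, mul_zero]⟩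
    have d2 : Disj (algebraMap F F' x) D := ⟨hx', fun P hP => by
      rw [Place.ord_restrict, hD P hP, mul_zero]⟩
    have d3 : Disj x (Finsupp.single (w.restrict F) n) := ⟨hx, fun P hP => by
      have : P = w.restrict F := by
        by_contra e
        exact hP (Finsupp.single_eq_of_ne e)
      rw [this, hw0]⟩
    have d4 : Disj x (Divisor.pushforward F D) := ⟨hx, fun P hP => by
      by_contra e
      refine hP (pushforward_apply_eq_zero fun w' hw' => ?_)
      by_contra e'
      exact e (by rw [← Place.mem_fiber.1 hw']; exact hD w' e')⟩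
    rw [map_add, pushforward_single_eq, evalD_add d1 d2, evalD_add d3 d4, ih hD, evalD_single,
      evalD_single, val_algebraMap_eq]

theorem evalD_sum {ι : Type*} (s : Finset ι) {f : F} (E : ι → Divisor K F)
    (h : ∀ i ∈ s, Disj f (E i)) (hf : f ≠ 0) : evalD f (∑ i ∈ s, E i) = ∏ i ∈ s, evalD f (E i) ∧
      Disj f (∑ i ∈ s, E i) := by
  classical
  induction s using Finset.induction_on with
  | empty => exact ⟨by rw [Finset.sum_empty, Finset.prod_empty, evalD_zero], disj_zero hf⟩
  | insert a s ha ih =>
    obtain ⟨h1, h2⟩ := ih fun i hi => h i (Finset.mem_insert_of_mem hi)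
    have h3 := h a (Finset.mem_insert_self a s)
    rw [Finset.sum_insert ha, Finset.prod_insert ha, evalD_add h3 h2, h1]
    exact ⟨rfl, h3.add h2⟩

theorem disj_single {f : F} (hf : f ≠ 0) {P : Place K F} (hP : P.ord f = 0) (n : ℤ) :
    Disj f (Finsupp.single P n) := ⟨hf, fun Q hQ => by
  have : Q = P := by
    by_contra e
    exact hQ (Finsupp.single_eq_of_ne e)
  rw [this, hP]⟩

/-- (A2) `f(π^* D) = (N f)(D)`. -/
theorem evalD_pullback {f : F'} (hf : f ≠ 0) (D : Divisor K F)
    (h : ∀ w : Place K F', D (w.restrict F) ≠ 0 → w.ord f = 0) :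
    evalD f (Divisor.pullback F' D) = evalD (Algebra.norm F f) D := by
  classical
  have hN : Algebra.norm F f ≠ 0 := Algebra.norm_ne_zero_iff.2 hf
  induction D using Finsupp.induction with
  | zero => rw [map_zero, evalD_zero, evalD_zero]
  | single_add v n D hv hn ih =>
    have hD : ∀ w : Place K F', D (w.restrict F) ≠ 0 → w.ord f = 0 := fun w hw => by
      refine h w ?_
      have : w.restrict F ≠ v := fun e => hv (by rw [← e]; exact Finsupp.mem_support_iff.2 hw)
      rwa [Finsupp.add_apply, Finsupp.single_eq_of_ne this, zero_add]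
    have hv0 : ∀ w ∈ v.fiber F', w.ord f = 0 := fun w hw => by
      refine h w ?_
      rwa [Place.mem_fiber.1 hw, Finsupp.add_apply, Finsupp.single_eq_same,
        Finsupp.notMem_support_iff.1 hv, add_zero]
    obtain ⟨e1, d1⟩ := evalD_sum (v.fiber F') (f := f)
      (fun w => Finsupp.single w (n * (w.ramificationIndex F : ℤ)))
      (fun w hw => disj_single hf (hv0 w hw) _) hf
    have d2 : Disj f (Divisor.pullback F' D) := ⟨hf, fun w hw => by
      refine hD w fun e => hw ?_
      rw [Divisor.pullback_apply, e, mul_zero]⟩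
    have d3 : Disj (Algebra.norm F f) (Finsupp.single v n) :=
      disj_single hN (ord_norm_eq_zero hf hv0) n
    have d4 : Disj (Algebra.norm F f) D := ⟨hN, fun P hP =>
      ord_norm_eq_zero hf fun w hw => hD w (by rwa [Place.mem_fiber.1 hw])⟩
    rw [map_add, Divisor.pullback_single, evalD_add d1 d2, evalD_add d3 d4, ih hD, e1, evalD_single,
      val_norm_eq_prod v f (fun w hw => (hv0 w hw).ge), ← Finset.prod_zpow]
    congr 1
    refine Finset.prod_congr rfl fun w _ => ?_
    rw [evalD_single, mul_comm, zpow_mul, zpow_natCast]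

variable {n : ℕ} {u : F} {D : Divisor K F} {u' : F'} {D' : Divisor K F'}

theorem IsKum.algebraMap' (hu : IsKum n u D) :
    IsKum n (algebraMap F F' u) (Divisor.pullback F' D) := by
  refine ⟨by simpa using hu.ne_zero, Finsupp.ext fun w => ?_⟩
  rw [divf_apply, Place.ord_restrict, hu.ord_eq, Finsupp.smul_apply, Divisor.pullback_apply]
  simp only [nsmul_eq_mul]
  ring

theorem pushforward_divf {f : F'} (hf : f ≠ 0) :
    Divisor.pushforward F (divf (K := K) f) = divf (K := K) (Algebra.norm F f) := by
  classical
  refine Finsupp.ext fun v => ?_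
  rw [Divisor.pushforward_apply, divf_apply, GR.S.ord_norm_eq_sum v f hf, ← Finset.sum_filter]
  have h1 : ∀ w ∈ (divf (K := K) f).support.filter (fun w => w.restrict F = v),
      divf (K := K) f w * (w.inertiaDeg F : ℤ) = w.ord f := by
    intro w _
    rw [GR.S.NormFormula_inertiaDeg_eq_one, Nat.cast_one, mul_one, divf_apply]
  rw [Finset.sum_congr rfl h1]
  refine Finset.sum_subset ?_ ?_
  · intro w hw
    rw [Finset.mem_filter] at hw
    exact Place.mem_fiber.mpr hw.2
  · intro w hw hw'
    rw [Finset.mem_filter, not_and, Finsupp.mem_support_iff, not_imp_not] at hw'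
    rw [← divf_apply (K := K)]
    exact hw' (Place.mem_fiber.mp hw)

theorem IsKum.norm (hu : IsKum n u' D') :
    IsKum n (Algebra.norm F u') (Divisor.pushforward F D') := by
  refine ⟨Algebra.norm_ne_zero_iff.2 hu.ne_zero, ?_⟩
  rw [← pushforward_divf hu.ne_zero, hu.2, map_nsmul]

theorem pullback_apply_eq_zero_iff (D : Divisor K F) (w : Place K F') :
    Divisor.pullback F' D w = 0 ↔ D (w.restrict F) = 0 := by
  rw [Divisor.pullback_apply, mul_eq_zero]
  constructor
  · rintro (h | h)
    · exact absurd (by exact_mod_cast h) (Place.ramificationIndex_pos (F := F) w).ne'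
    · exact h
  · exact Or.inr

theorem disjD_pushforward (hd : DisjD D' (Divisor.pullback F' D)) :
    DisjD (Divisor.pushforward F D') D := fun v => by
  by_cases hv : D v = 0
  · exact Or.inr hv
  · refine Or.inl (pushforward_apply_eq_zero fun w hw => ?_)
    rcases hd w with h | h
    · exact h
    · rw [pullback_apply_eq_zero_iff, Place.mem_fiber.1 hw] at h
      exact absurd h hv

/-- (ADJ) for Kummer pairs. -/
theorem ePair_adj (hu' : IsKum n u' D') (hu : IsKum n u D)
    (hd : DisjD D' (Divisor.pullback F' D)) :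
    ePair u' D' (algebraMap F F' u) (Divisor.pullback F' D) =
      ePair (Algebra.norm F u') (Divisor.pushforward F D') u D := by
  unfold ePair
  rw [evalD_pullback hu'.ne_zero D, evalD_algebraMap_eq hu.ne_zero D']
  · intro w hw
    rcases hd w with h | h
    · exact absurd h hw
    · rw [hu.ord_eq, (pullback_apply_eq_zero_iff D w).1 h, mul_zero]
  · intro w hw
    rcases hd w with h | h
    · rw [hu'.ord_eq, h, mul_zero]
    · exact absurd ((pullback_apply_eq_zero_iff D w).1 h) hw

theorem IsRep.pullback [FundamentalIdentity K F F'] {y : Pic0 K F} (h : IsRep n y u D) :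
    IsRep n (Pic0.pullbackHom F' y) (algebraMap F F' u) (Divisor.pullback F' D) := by
  obtain ⟨k, m, rfl⟩ := h
  exact ⟨k.algebraMap', Divisor.pullback_mem_degZero m, rfl⟩

theorem IsRep.pushforward (H : Divisor.PushforwardNormFormula K F F') {x' : Pic0 K F'}
    (h : IsRep n x' u' D') :
    IsRep n (Pic0.pushforwardHom K F F' H x') (Algebra.norm F u') (Divisor.pushforward F D') := by
  obtain ⟨k, m, rfl⟩ := h
  exact ⟨k.norm, Divisor.pushforward_mem_degZero m, rfl⟩

/-- **(ADJ)** `e^{F'}(x', π^* y) = e^{F}(π_* x', y)`. -/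
theorem weil_adj [FundamentalIdentity K F F'] (H : Divisor.PushforwardNormFormula K F F')
    (hn : n ≠ 0) {x' : Pic0 K F'} {y : Pic0 K F} (hx' : n • x' = 0) (hy : n • y = 0) :
    weil n x' (Pic0.pullbackHom F' y) = weil n (Pic0.pushforwardHom K F F' H x') y := by
  obtain ⟨u, D, h, -⟩ := exists_rep hy ∅
  obtain ⟨u', D', h', hd⟩ := exists_rep hx' (Divisor.pullback F' D).support
  have hd' : DisjD D' (Divisor.pullback F' D) := (disjD_of_forall_mem_support hd).symm
  rw [weil_eq hn h' h.pullback hd', weil_eq hn (h'.pushforward H) h (disjD_pushforward hd'),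
    ePair_adj h'.kum h.kum hd']

end Fermat.Agent.S19.W
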