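/-
S19 / W : compatibility of `val`, `evalD`, `divf`, `ePair` with an extension of the constant field (abstract form).
-/
import Fermat.Agent.S19.W.Pair

set_option autoImplicit false
set_option linter.unusedSectionVars false

noncomputable section

namespace Fermat.Agent.S19.W

open AlgebraicCurve Fermat.Agent.S17.FF

variable {K F K' F' : Type*} [Field K] [Field F] [Algebra K F] [IsAlgClosed K] [CharZero K] [IsFF K F]
  [Field K'] [Field F'] [Algebra K' F'] [IsAlgClosed K'] [CharZero K'] [IsFF K' F']

/-- an extension of the constant field `K → K'`, `F → F'`, with the extension of places `v ↦ up v`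
(example: `F = FF k N`, `F' = FF Ω N`, `φ = GR.C.bc N (algebraMap k Ω)`, `GR.C.exists_place_extend`). -/
structure ConstExt (ι : K →+* K') (φ : F →+* F') (up : Place K F → Place K' F') : Prop where
  comm : ∀ a : K, φ (algebraMap K F a) = algebraMap K' F' (ι a)
  ord_up : ∀ (v : Place K F) (f : F), (up v).ord (φ f) = v.ord f
  ord_other : ∀ w : Place K' F', (∀ v, up v ≠ w) → ∀ f : F, w.ord (φ f) = 0

variable {ι : K →+* K'} {φ : F →+* F'} {up : Place K F → Place K' F'}

/-- (two distinct places are separated by a function: `place_ext_ord`) -/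
theorem ConstExt.up_injective (h : ConstExt ι φ up) : Function.Injective up := by
  intro v w hvw
  refine place_ext_ord fun f => ?_
  rw [← h.ord_up v f, ← h.ord_up w f, hvw]

/-- (`val_eq_iff`) -/
theorem ConstExt.val_up (h : ConstExt ι φ up) (v : Place K F) (f : F) :
    val (up v) (φ f) = ι (val v f) := by
  by_cases hf : 0 ≤ v.ord f
  · have hf' : 0 ≤ (up v).ord (φ f) := by rw [h.ord_up]; exact hf
    rw [val_eq_iff (up v) hf', ← h.comm, ← map_sub, h.ord_up]
    rcases (val_eq_iff v hf (val v f)).1 rfl with h1 | h1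
    · exact Or.inl (congrArg φ h1)
    · exact Or.inr h1
  · have h1 : f ∉ v.toValuationSubring := by
      rwa [Fermat.Agent.S24.Zeros.mem_iff_ord_nonneg']
    have h2 : φ f ∉ (up v).toValuationSubring := by
      rwa [Fermat.Agent.S24.Zeros.mem_iff_ord_nonneg', h.ord_up]
    unfold val
    rw [dif_neg h1, dif_neg h2, map_zero]

/-- the extension of a divisor. -/
def upD (up : Place K F → Place K' F') (D : Divisor K F) : Divisor K' F' := D.mapDomain up

theorem ConstExt.upD_apply (h : ConstExt ι φ up) (D : Divisor K F) (v : Place K F) :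
    upD up D (up v) = D v := by
  exact Finsupp.mapDomain_apply h.up_injective D v

theorem ConstExt.upD_apply_of_notMem (h : ConstExt ι φ up) (D : Divisor K F) {w : Place K' F'}
    (hw : ∀ v, up v ≠ w) : upD up D w = 0 := by
  refine Finsupp.mapDomain_of_notMem_range D w ?_
  rintro ⟨v, hv⟩
  exact hw v hv

theorem upD_add (D E : Divisor K F) : upD up (D + E) = upD up D + upD up E := by
  exact Finsupp.mapDomain_add

theorem upD_nsmul (n : ℕ) (D : Divisor K F) : upD up (n • D) = n • upD up D := by
  exact Finsupp.mapDomain_smul n D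

theorem ConstExt.divf_up (h : ConstExt ι φ up) (f : F) :
    divf (K := K') (φ f) = upD up (divf (K := K) f) := by
  refine Finsupp.ext fun w => ?_
  by_cases hw : ∃ v, up v = w
  · obtain ⟨v, rfl⟩ := hw
    rw [divf_apply, h.ord_up, h.upD_apply, divf_apply]
  · push Not at hw
    rw [divf_apply, h.ord_other w hw, h.upD_apply_of_notMem _ hw]

theorem ConstExt.evalD_up (h : ConstExt ι φ up) (f : F) (D : Divisor K F) :
    evalD (φ f) (upD up D) = ι (evalD f D) := by
  unfold evalD upD
  rw [Finsupp.prod_mapDomain_index_inj h.up_injective, map_finsuppProd]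
  refine Finsupp.prod_congr fun v _ => ?_
  rw [h.val_up, map_zpow₀]

theorem ConstExt.isKum_up (h : ConstExt ι φ up) {n : ℕ} {u : F} {D : Divisor K F}
    (hu : IsKum n u D) : IsKum n (φ u) (upD up D) := by
  exact ⟨(map_ne_zero φ).2 hu.1, by rw [h.divf_up, hu.2, upD_nsmul]⟩

theorem ConstExt.disjD_up (h : ConstExt ι φ up) {D E : Divisor K F} (hd : DisjD D E) :
    DisjD (upD up D) (upD up E) := by
  intro w
  by_cases hw : ∃ v, up v = w
  · obtain ⟨v, rfl⟩ := hw
    rw [h.upD_apply, h.upD_apply]
    exact hd v
  · push Not at hw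
    exact Or.inl (h.upD_apply_of_notMem _ hw)

theorem ConstExt.ePair_up (h : ConstExt ι φ up) (u : F) (D : Divisor K F) (u' : F)
    (D' : Divisor K F) :
    ePair (φ u) (upD up D) (φ u') (upD up D') = ι (ePair u D u' D') := by
  unfold ePair
  rw [h.evalD_up, h.evalD_up, map_div₀]

end Fermat.Agent.S19.W
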